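import Fermat.Agent.TwoAdic.Weil.Product

/-!
# The torus invariant vector and its translates

`base μ` is the vector `x ↦ μ x` of `cusp μ`; it is fixed by the diagonal torus and its translates
span. Consequently a functional invariant under one nontrivial translation vanishes.

Owner: helper77 (LT2, P3b).
-/

set_option autoImplicit false
set_option linter.unusedSectionVars false

noncomputable section

namespace Fermat.Agent.TwoAdic.Weil

open Finset
open scoped Classical Matrix

variable {ι : Type*} [Fintype ι] {F E : ι → Type*}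
  [∀ i, Field (F i)] [∀ i, Field (E i)] [∀ i, Fintype (F i)] [∀ i, Fintype (E i)]
  [∀ i, Algebra (F i) (E i)] [∀ i, IsPlane (F i) (E i)]
  {A : Type*} [CommRing A] {R : Type*} [CommRing R] [IsDomain R]
  (d : Data A F R) (μ : ∀ i, (E i)ˣ →* Rˣ)

/-- The point with the given nonzero coordinates, as a family of units. -/
def unitsOf (x : ∀ i, E i) (hx : ∀ i, x i ≠ 0) : ∀ i, (E i)ˣ := fun i => Units.mk0 (x i) (hx i)

/-- The function `x ↦ μ x`, zero where a coordinate is zero. -/
def baseFun (x : ∀ i, E i) : R := if hx : ∀ i, x i ≠ 0 then muVal μ (unitsOf x hx) else 0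

theorem baseFun_scale (u : ∀ i, (E i)ˣ) (x : ∀ i, E i) :
    baseFun μ (scale u x) = muVal μ u * baseFun μ x := by
  by_cases hx : ∀ i, x i ≠ 0
  · have hx' : ∀ i, scale u x i ≠ 0 := fun i => mul_ne_zero (u i).ne_zero (hx i)
    rw [baseFun, baseFun, dif_pos hx, dif_pos hx', ← muVal_mul]
    congr 1
    funext i
    exact Units.ext rfl
  · have hx' : ¬ ∀ i, scale u x i ≠ 0 := fun h => hx fun i e => h i (by simp [scale, e])
    rw [baseFun, baseFun, dif_neg hx, dif_neg hx', mul_zero]

variable (F) in
/-- The torus invariant vector. -/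
def base : cusp (F := F) μ := ⟨baseFun μ, fun u _ x => baseFun_scale μ u x⟩

theorem coe_base : (base F μ : (∀ i, E i) → R) = baseFun μ := rfl

variable {μ}

theorem muVal_ne_zero (u : ∀ i, (E i)ˣ) : muVal μ u ≠ 0 :=
  Finset.prod_ne_zero_iff.mpr fun i _ => (μ i (u i)).ne_zero

theorem muVal_eq_one_of_scalar (hμ : IsCuspidal (F := F) μ) (u : ∀ i, (E i)ˣ)
    (a : ∀ i, F i) (h : ∀ i, algebraMap (F i) (E i) (a i) = u i) : muVal μ u = 1 :=
  Finset.prod_eq_one fun i _ => by rw [hμ.trivial i (u i) (a i) (h i), Units.val_one]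

/-- `base μ` is fixed by the diagonal torus. -/
theorem rep_base_of_diagonal (hμ : IsCuspidal (F := F) μ) (g : GL (Fin 2) A) (a e : Aˣ)
    (hg : (g : Matrix (Fin 2) (Fin 2) A) = !![(a : A), 0; 0, (e : A)]) :
    rep d μ g (base F μ) = base F μ := by
  obtain ⟨h, hl⟩ := exists_isNormLift (E := E) d (a * e)
  refine Subtype.ext <| funext fun x => ?_
  rw [rep_diagonal d g a e hg hl, coe_base]
  let c : ∀ i, (E i)ˣ := fun i =>
    Units.map (algebraMap (F i) (E i) : F i →* E i) (Units.map (d.proj i : A →* F i) e⁻¹)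
  have hc : (fun i => d.proj i ((e⁻¹ : Aˣ) : A) • ((h i : E i) * x i)) = scale (c * h) x := by
    funext i
    simp [c, scale, Algebra.smul_def, mul_assoc]
  rw [hc, baseFun_scale, muVal_mul,
    muVal_eq_one_of_scalar hμ c (fun i => d.proj i ((e⁻¹ : Aˣ) : A)) (fun i => rfl), one_mul,
    ← mul_assoc, muVal_inv_mul, one_mul]

/-- The translation by `b`. -/
def translation (b : A) : GL (Fin 2) A :=
  ⟨!![1, b; 0, 1], !![1, -b; 0, 1], by rw [Matrix.mul_fin_two, Matrix.one_fin_two]; simp,
    by rw [Matrix.mul_fin_two, Matrix.one_fin_two]; simp⟩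

theorem coe_translation (b : A) :
    (translation b : Matrix (Fin 2) (Fin 2) A) = !![1, b; 0, 1] := rfl

theorem prod_sum_addChar (m n : ∀ i, F i) :
    ∑ b : ∀ i, F i, (∏ i, d.char i (b i * m i)) * ∏ i, d.char i (-(b i * n i)) =
      if m = n then ∏ i, (Fintype.card (F i) : R) else 0 := by
  simp only [← Finset.prod_mul_distrib, ← AddChar.map_add_eq_mul]
  rw [← Fintype.piFinset_univ, ← Finset.prod_univ_sum (fun _ => univ)
    fun i b => d.char i (b * m i + -(b * n i))]
  have key : ∀ i, ∑ b : F i, d.char i (b * m i + -(b * n i)) =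
      if m i = n i then (Fintype.card (F i) : R) else 0 := fun i => by
    split_ifs with h
    · simp [h]
    · rw [← AddChar.sum_eq_zero_of_ne_one (d.char_ne i)]
      exact Fintype.sum_equiv (Equiv.mulRight₀ (m i - n i) (sub_ne_zero.mpr h)) _ _
        fun b => by simp only [Equiv.mulRight₀]; congr 1; simp; ring
  simp only [key, Fintype.prod_ite_zero, funext_iff]

theorem exists_norm_eq (n : ∀ i, F i) : ∃ s : ∀ i, E i, ∀ i, Algebra.norm (F i) (s i) = n i := by
  choose s hs using fun i => FiniteField.norm_surjective (F i) (E i) (n i)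
  exact ⟨s, hs⟩

theorem ne_zero_of_norm_ne_zero {x : ∀ i, E i} (hx : ∀ i, Algebra.norm (F i) (x i) ≠ 0) (i : ι) :
    x i ≠ 0 :=
  fun e => hx i (by rw [e, Algebra.norm_zero])

/-- The translates of `base μ` span `cusp μ`. -/
theorem span_translates (hμ : IsCuspidal (F := F) μ)
    (hsurj : Function.Surjective fun (a : A) i => d.proj i a) :
    Submodule.span R (Set.range fun b : A => rep d μ (translation b) (base F μ)) = ⊤ := by
  rw [eq_top_iff]
  rintro φ -
  have hq : IsUnit (∏ i, (Fintype.card (F i) : R)) := by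
    rw [IsUnit.prod_iff]
    exact fun i _ => letI := d.inv i; isUnit_of_invertible _
  obtain ⟨c, hc⟩ := hq.exists_left_inv
  choose lift hlift using hsurj
  choose s hs using exists_norm_eq (F := F) (E := E)
  let g : (∀ i, F i) → R := fun n => if hn : ∀ i, s n i ≠ 0
    then (φ : (∀ i, E i) → R) (s n) * muVal μ (unitsOf (s n) hn)⁻¹ else 0
  have key : φ = ∑ n : ∀ i, F i, ∑ b : ∀ i, F i,
      (g n * c * ∏ i, d.char i (-(b i * n i))) • rep d μ (translation (lift b)) (base F μ) := by
    refine Subtype.ext <| funext fun x => ?_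
    simp only [Submodule.coe_sum, Submodule.coe_smul, Finset.sum_apply, Pi.smul_apply, smul_eq_mul,
      rep_translation d _ _ (coe_translation _), coe_base]
    have hin : ∀ n : ∀ i, F i, ∑ b : ∀ i, F i, g n * c * (∏ i, d.char i (-(b i * n i))) *
        ((∏ i, d.char i (d.proj i (lift b) * Algebra.norm (F i) (x i))) * baseFun μ x) =
        g n * c * baseFun μ x *
          if (fun i => Algebra.norm (F i) (x i)) = n then ∏ i, (Fintype.card (F i) : R) else 0 := by
      intro n
      rw [← prod_sum_addChar d, Finset.mul_sum]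
      refine Finset.sum_congr rfl fun b _ => ?_
      simp only [congrFun (hlift b)]
      ring
    simp only [hin, mul_ite, mul_zero, Finset.sum_ite_eq, Finset.mem_univ, if_true]
    by_cases hx : ∀ i, x i ≠ 0
    · set n : ∀ i, F i := fun i => Algebra.norm (F i) (x i) with hn
      have hn0 : ∀ i, s n i ≠ 0 := ne_zero_of_norm_ne_zero fun i => by
        rw [hs n i]
        exact fun e => hx i (Algebra.norm_eq_zero_iff.mp e)
      set u := unitsOf x hx * (unitsOf (s n) hn0)⁻¹ with hu
      have hu1 : ∀ i, Algebra.norm (F i) (u i : E i) = 1 := fun i => by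
        have h1 : Algebra.norm (F i) (u i : E i) * Algebra.norm (F i) (s n i) =
            1 * Algebra.norm (F i) (s n i) := by
          rw [← map_mul, one_mul, hs n i]
          refine congrArg (Algebra.norm (F i)) ?_
          simp [hu, unitsOf, hn0 i]
        exact mul_right_cancel₀ (fun e => hn0 i (Algebra.norm_eq_zero_iff.mp e)) h1
      have hxu : scale u (s n) = x := funext fun i => by simp [hu, scale, unitsOf, hn0 i]
      have hφ := φ.2 u hu1 (s n)
      rw [hxu] at hφ
      rw [hφ, baseFun, dif_pos hx, hu, muVal_mul]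
      simp only [g, dif_pos hn0]
      linear_combination (-((φ : (∀ i, E i) → R) (s n) * muVal μ (unitsOf x hx) *
        muVal μ (unitsOf (s n) hn0)⁻¹)) * hc
    · obtain ⟨i, hi⟩ := not_forall.mp hx
      rw [apply_eq_zero_of_zero hμ φ (not_not.mp hi), baseFun, dif_neg hx, mul_zero, zero_mul]
  rw [key]
  exact Submodule.sum_mem _ fun n _ => Submodule.sum_mem _ fun b _ =>
    Submodule.smul_mem _ _ (Submodule.subset_span ⟨_, rfl⟩)

/-- Two linear maps equal on the translates of `base μ` are equal. -/
theorem hom_ext (hμ : IsCuspidal (F := F) μ)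
    (hsurj : Function.Surjective fun (a : A) i => d.proj i a) {M : Type*} [AddCommGroup M]
    [Module R M] {f f' : cusp (F := F) μ →ₗ[R] M}
    (h : ∀ b : A, f (rep d μ (translation b) (base F μ)) = f' (rep d μ (translation b) (base F μ))) :
    f = f' :=
  LinearMap.ext_on_range (span_translates d hμ hsurj) h

end Fermat.Agent.TwoAdic.Weil

namespace Fermat.Agent.TwoAdic.Weil

variable {ι : Type*} [Fintype ι] {F E : ι → Type*}
  [∀ i, Field (F i)] [∀ i, Field (E i)] [∀ i, Fintype (F i)] [∀ i, Fintype (E i)]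
  [∀ i, Algebra (F i) (E i)] [∀ i, IsPlane (F i) (E i)]
  {A : Type*} [CommRing A] {K : Type*} [Field K] (d : Data A F K) {μ : ∀ i, (E i)ˣ →* Kˣ}

open scoped Classical in
/-- A functional invariant under a translation nontrivial at one place vanishes. -/
theorem eq_zero_of_comp_translation (hμ : IsCuspidal (F := F) μ) {i₀ : ι} {b : A}
    (hb : ∀ i, i ≠ i₀ → d.proj i b = 0) (hinj : ∀ a, a ≠ 0 → d.char i₀ (d.proj i₀ b * a) ≠ 1)
    {M : Type*} [AddCommGroup M] [Module K M] (f : cusp (F := F) μ →ₗ[K] M)
    (hf : f ∘ₗ rep d μ (translation b) = f) : f = 0 := by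
  refine LinearMap.ext fun φ => ?_
  let c : (∀ i, E i) → K := fun x => d.char i₀ (d.proj i₀ b * Algebra.norm (F i₀) (x i₀)) - 1
  have hc : ∀ x, x i₀ ≠ 0 → c x ≠ 0 := fun x hx =>
    sub_ne_zero.mpr (hinj _ fun e => hx (Algebra.norm_eq_zero_iff.mp e))
  let ψ : cusp (F := F) μ := ⟨fun x => (φ : (∀ i, E i) → K) x * (c x)⁻¹, fun u hu x => by
    show (φ : (∀ i, E i) → K) (scale u x) * (c (scale u x))⁻¹ = _
    rw [φ.2 u hu, show c (scale u x) = c x by simp [c, scale, map_mul, hu i₀], mul_assoc]⟩
  have hψ : rep d μ (translation b) ψ = ψ + φ := by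
    refine Subtype.ext <| funext fun x => ?_
    rw [rep_translation d _ _ (coe_translation b), Submodule.coe_add, Pi.add_apply,
      Finset.prod_eq_single i₀ (fun i _ hi => by rw [hb i hi]; simp) (by simp)]
    by_cases hx : x i₀ = 0
    · simp [ψ, apply_eq_zero_of_zero hμ φ hx]
    · have := hc x hx
      simp only [ψ]
      field_simp
      simp only [c]
      ring
  have h := LinearMap.congr_fun hf ψ
  rw [LinearMap.comp_apply, hψ, map_add, add_eq_left] at h
  exact h

end Fermat.Agent.TwoAdic.Weil
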