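import Mathlib.FieldTheory.Finite.GaloisField
import Mathlib.FieldTheory.Finite.Trace
import Mathlib.NumberTheory.LegendreSymbol.AddCharacter
import Mathlib.LinearAlgebra.Matrix.SpecialLinearGroup
import Mathlib.LinearAlgebra.Matrix.NonsingularInverse
import Mathlib.Algebra.Group.Invertible.Basic
import Mathlib.Tactic.FieldSimp
import Mathlib.Tactic.LinearCombination

/-!
# The Weil representation of `SL₂(F)` on functions on an anisotropic plane

`E/F` is the quadratic extension of the finite field `F` (`q = #F`), seen as the plane with the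
quadratic form `N = Algebra.norm F`.  For `g = (a b; c d)` of determinant one the kernel is

* `ψ(a b N x) δ(y = a x)` if `c = 0`,
* `-q⁻¹ ψ((a N x - B(x, y) + d N y) / c)` otherwise,

with `B` the polar form of `N`.  The constant `-q⁻¹` comes from the Gauss sum of an anisotropic
plane, which is `-q`.  Everything works over any domain in which `q` is invertible.
-/

set_option autoImplicit false
set_option linter.unusedSectionVars false

noncomputable section

namespace Fermat.Agent.TwoAdic.Weil

open Finset

variable (F E : Type*) [Field F] [Field E] [Fintype F] [Fintype E] [Algebra F E]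

/-- The conjugation of `E/F`. -/
def planeConj : E ≃ₐ[F] E := FiniteField.frobeniusAlgEquivOfAlgebraic F E

/-- The polar form of the norm. -/
def planeB (x y : E) : F := Algebra.trace F E (x * planeConj F E y)

/-- `[E : F] = 2`. -/
class IsPlane : Prop where
  finrank_eq_two : Module.finrank F E = 2

variable {F E}

section Form

variable [IsPlane F E]

theorem algebraMap_norm (x : E) :
    algebraMap F E (Algebra.norm F x) = x * planeConj F E x := by
  rw [FiniteField.algebraMap_norm_eq_prod_pow, IsPlane.finrank_eq_two (F := F) (E := E),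
    prod_range_succ, prod_range_one, Nat.card_eq_fintype_card]
  simp [planeConj]

theorem algebraMap_trace (x : E) :
    algebraMap F E (Algebra.trace F E x) = x + planeConj F E x := by
  rw [FiniteField.algebraMap_trace_eq_sum_pow, IsPlane.finrank_eq_two (F := F) (E := E),
    sum_range_succ, sum_range_one, Nat.card_eq_fintype_card]
  simp [planeConj]

theorem planeConj_planeConj (x : E) : planeConj F E (planeConj F E x) = x := by
  have h₁ := (algebraMap_trace (F := F) x)
  have h₂ : planeConj F E (x + planeConj F E x) = x + planeConj F E x := by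
    rw [← h₁, AlgEquiv.commutes]
  rw [map_add] at h₂
  linear_combination h₂

theorem algebraMap_planeB (x y : E) :
    algebraMap F E (planeB F E x y) = x * planeConj F E y + planeConj F E x * y := by
  rw [planeB, algebraMap_trace, map_mul, planeConj_planeConj]

theorem norm_add (x y : E) :
    Algebra.norm F (x + y) = Algebra.norm F x + planeB F E x y + Algebra.norm F y := by
  apply (algebraMap F E).injective
  rw [algebraMap_norm, map_add (algebraMap F E), map_add (algebraMap F E), algebraMap_norm,
    algebraMap_norm, algebraMap_planeB, map_add (planeConj F E)]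
  ring

theorem norm_smul (a : F) (x : E) : Algebra.norm F (a • x) = a ^ 2 * Algebra.norm F x := by
  rw [Algebra.smul_def, map_mul, Algebra.norm_algebraMap, IsPlane.finrank_eq_two (F := F) (E := E)]

theorem planeB_comm (x y : E) : planeB F E x y = planeB F E y x := by
  apply (algebraMap F E).injective
  rw [algebraMap_planeB, algebraMap_planeB]
  ring

theorem planeB_add_right (x y z : E) :
    planeB F E x (y + z) = planeB F E x y + planeB F E x z := by
  simp [planeB, mul_add]

theorem planeB_sub_right (x y z : E) :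
    planeB F E x (y - z) = planeB F E x y - planeB F E x z := by
  simp [planeB, mul_sub]

theorem planeB_smul_right (a : F) (x y : E) : planeB F E x (a • y) = a * planeB F E x y := by
  simp [planeB]

theorem planeB_smul_left (a : F) (x y : E) : planeB F E (a • x) y = a * planeB F E x y := by
  simp [planeB]

theorem planeB_self (x : E) : planeB F E x x = 2 * Algebra.norm F x := by
  apply (algebraMap F E).injective
  rw [algebraMap_planeB, map_mul, algebraMap_norm, map_ofNat]
  ring

theorem planeB_mul_mul (h x y : E) :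
    planeB F E (h * x) (h * y) = Algebra.norm F h * planeB F E x y := by
  apply (algebraMap F E).injective
  rw [algebraMap_planeB, map_mul, map_mul, map_mul, algebraMap_planeB, algebraMap_norm]
  ring

theorem exists_planeB_ne_zero {y : E} (hy : y ≠ 0) : ∃ x : E, planeB F E x y ≠ 0 := by
  obtain ⟨z, hz⟩ := Algebra.trace_surjective F E 1
  refine ⟨z / planeConj F E y, ?_⟩
  rw [planeB, div_mul_cancel₀ z ((map_ne_zero _).mpr hy), hz]
  exact one_ne_zero

/-- Every nonzero value is a norm from exactly `q + 1` elements. -/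
theorem card_norm_fibre [DecidableEq F] {a : F} (ha : a ≠ 0) :
    (univ.filter fun x : E => Algebra.norm F x = a).card = Fintype.card F + 1 := by
  classical
  have heq : ∀ b ∈ (univ : Finset F).erase 0,
      (univ.filter fun x : E => Algebra.norm F x = b).card =
        (univ.filter fun x : E => Algebra.norm F x = a).card := by
    intro b hb
    obtain ⟨h, hh⟩ := FiniteField.norm_surjective F E (b / a)
    have hb0 : b ≠ 0 := (Finset.mem_erase.mp hb).1
    have hh0 : h ≠ 0 := by
      rintro rfl
      rw [Algebra.norm_zero] at hh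
      exact div_ne_zero hb0 ha hh.symm
    refine Finset.card_bij' (fun x _ => x / h) (fun x _ => x * h) ?_ ?_ ?_ ?_
    · intro x hx
      simp only [Finset.mem_filter, Finset.mem_univ, true_and] at hx ⊢
      rw [div_eq_mul_inv, map_mul, hx]
      have hinv : Algebra.norm F h⁻¹ = (Algebra.norm F h)⁻¹ :=
        eq_inv_of_mul_eq_one_left (by rw [← map_mul, inv_mul_cancel₀ hh0, map_one])
      rw [hinv, hh]
      field_simp
    · intro x hx
      simp only [Finset.mem_filter, Finset.mem_univ, true_and] at hx ⊢
      rw [map_mul, hx, hh]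
      field_simp
    · intro x _; field_simp
    · intro x _; field_simp
  have hzero : (univ.filter fun x : E => Algebra.norm F x = 0).card = 1 := by
    rw [Finset.card_eq_one]
    exact ⟨0, by ext x; simp [Algebra.norm_eq_zero_iff]⟩
  have htot := Finset.card_eq_sum_card_fiberwise (f := fun x : E => Algebra.norm F x)
    (s := univ) (t := univ) (fun _ _ => Finset.mem_univ _)
  rw [← Finset.add_sum_erase _ _ (Finset.mem_univ (0 : F)), hzero, Finset.sum_congr rfl heq,
    Finset.sum_const, Finset.card_erase_of_mem (Finset.mem_univ _), smul_eq_mul, Finset.card_univ,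
    Finset.card_univ, Module.card_eq_pow_finrank (K := F) (V := E),
    IsPlane.finrank_eq_two (F := F) (E := E)] at htot
  obtain ⟨m, hm⟩ : ∃ m, Fintype.card F = m + 2 :=
    ⟨Fintype.card F - 2, by have := Fintype.one_lt_card (α := F); omega⟩
  rw [hm, show m + 2 - 1 = m + 1 from rfl] at htot
  rw [hm]
  refine Nat.eq_of_mul_eq_mul_left (Nat.succ_pos m) ?_
  simp only [Nat.succ_eq_add_one]
  nlinarith [htot]

end Form

variable {R : Type*} [CommRing R] (ψ : AddChar F R)

section Gauss

variable [IsPlane F E] [IsDomain R]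

variable {ψ} (hψ : ψ ≠ 1)

include hψ

/-- The Gauss sum of an anisotropic plane is `-q`. -/
theorem sum_addChar_norm {A : F} (hA : A ≠ 0) :
    ∑ x : E, ψ (A * Algebra.norm F x) = -(Fintype.card F : R) := by
  classical
  have hall : ∑ a : F, ψ (A * a) = 0 := by
    rw [← AddChar.sum_eq_zero_of_ne_one hψ]
    exact Fintype.sum_equiv (Equiv.mulLeft₀ A hA) _ _ fun a => rfl
  rw [← Finset.sum_fiberwise_of_maps_to (s := univ) (t := univ)
    (g := fun x : E => Algebra.norm F x) (fun _ _ => Finset.mem_univ _)]
  have hfib : ∀ a : F, ∑ x ∈ univ.filter (fun x : E => Algebra.norm F x = a),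
      ψ (A * Algebra.norm F x) =
        ((univ.filter fun x : E => Algebra.norm F x = a).card : R) * ψ (A * a) := by
    intro a
    rw [← nsmul_eq_mul, ← Finset.sum_const]
    exact Finset.sum_congr rfl fun x hx => by rw [(Finset.mem_filter.mp hx).2]
  rw [Finset.sum_congr rfl fun a _ => hfib a, ← Finset.add_sum_erase _ _ (Finset.mem_univ (0 : F))]
  rw [← Finset.add_sum_erase _ _ (Finset.mem_univ (0 : F))] at hall
  rw [Finset.sum_congr rfl fun a ha => by
    rw [card_norm_fibre (E := E) (Finset.mem_erase.mp ha).1], ← Finset.mul_sum]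
  have hzero : (univ.filter fun x : E => Algebra.norm F x = 0).card = 1 := by
    rw [Finset.card_eq_one]
    exact ⟨0, by ext x; simp [Algebra.norm_eq_zero_iff]⟩
  simp only [hzero, mul_zero, AddChar.map_zero_eq_one, Nat.cast_one, mul_one,
    Nat.cast_add] at hall ⊢
  linear_combination ((Fintype.card F : R) + 1) * hall

/-- Orthogonality of the characters `y ↦ ψ(B(y, v))`. -/
theorem sum_addChar_planeB (v : E) [DecidableEq E] :
    ∑ y : E, ψ (-planeB F E y v) = if v = 0 then (Fintype.card F : R) ^ 2 else 0 := by
  split_ifs with hv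
  · subst hv
    have hcard : Fintype.card E = Fintype.card F ^ 2 := by
      rw [Module.card_eq_pow_finrank (K := F) (V := E), IsPlane.finrank_eq_two (F := F) (E := E)]
    simp [planeB, hcard]
  · obtain ⟨x, hx⟩ := exists_planeB_ne_zero (F := F) hv
    obtain ⟨a, ha⟩ := AddChar.ne_one_iff.mp hψ
    set x' := (-a / planeB F E x v) • x with hx'
    have hv' : ψ (-planeB F E x' v) ≠ 1 := by
      rw [hx', planeB_smul_left, neg_div, neg_mul, neg_neg, div_mul_cancel₀ a hx]
      exact ha
    have hshift : ∑ y : E, ψ (-planeB F E (x' + y) v) = ∑ y : E, ψ (-planeB F E y v) :=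
      Fintype.sum_bijective _ (AddGroup.addLeft_bijective x') _ _ fun _ => rfl
    simp only [planeB_comm (x' + _), planeB_add_right, neg_add, AddChar.map_add_eq_mul,
      ← Finset.mul_sum] at hshift
    simp only [planeB_comm v] at hshift
    exact (mul_left_eq_self₀.mp hshift).resolve_left hv'

end Gauss

variable [Invertible (Fintype.card F : R)]

open scoped Classical in
/-- The Weil kernel of `g` (meaningful for `det g = 1`). -/
def kern (g : Matrix (Fin 2) (Fin 2) F) (x y : E) : R :=
  if g 1 0 = 0 then
    if y = g 0 0 • x then ψ (g 0 0 * g 0 1 * Algebra.norm F x) else 0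
  else
    -⅟(Fintype.card F : R) *
      ψ ((g 0 0 * Algebra.norm F x - planeB F E x y + g 1 1 * Algebra.norm F y) / g 1 0)

theorem kern_one [DecidableEq E] (x y : E) :
    kern ψ (1 : Matrix (Fin 2) (Fin 2) F) x y = if y = x then 1 else 0 := by
  simp [kern]

variable [IsPlane F E] [IsDomain R] {ψ} (hψ : ψ ≠ 1)

include hψ

/-- The kernels compose like the matrices. -/
theorem sum_kern_mul_kern (g₁ g₂ : Matrix (Fin 2) (Fin 2) F) (h₁ : g₁.det = 1) (h₂ : g₂.det = 1)
    (x z : E) : ∑ y : E, kern ψ g₁ x y * kern ψ g₂ y z = kern ψ (g₁ * g₂) x z := by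
  classical
  rw [Matrix.det_fin_two] at h₁ h₂
  obtain ⟨a₁, b₁, c₁, d₁, rfl⟩ : ∃ a b c d, g₁ = !![a, b; c, d] :=
    ⟨_, _, _, _, (Matrix.eta_fin_two g₁)⟩
  obtain ⟨a₂, b₂, c₂, d₂, rfl⟩ : ∃ a b c d, g₂ = !![a, b; c, d] :=
    ⟨_, _, _, _, (Matrix.eta_fin_two g₂)⟩
  simp only [Matrix.cons_val', Matrix.cons_val_zero, Matrix.cons_val_one, Matrix.of_apply,
    Matrix.empty_val', Matrix.cons_val_fin_one] at h₁ h₂
  simp only [kern, Matrix.mul_fin_two, Matrix.of_apply, Matrix.cons_val', Matrix.cons_val_zero,
    Matrix.cons_val_one, Matrix.empty_val', Matrix.cons_val_fin_one]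
  rcases eq_or_ne c₁ 0 with rfl | hc₁
  · -- first matrix upper triangular
    rw [Finset.sum_eq_single (a₁ • x) (fun y _ hy => by simp [hy])
      (fun h => absurd (Finset.mem_univ _) h)]
    simp only [if_true, zero_mul, zero_add]
    have had : a₁ * d₁ = 1 := by linear_combination h₁
    have hd₁ : d₁ ≠ 0 := right_ne_zero_of_mul_eq_one had
    rcases eq_or_ne c₂ 0 with rfl | hc₂
    · have had₂ : a₂ * d₂ = 1 := by linear_combination h₂
      simp only [mul_zero, add_zero, if_true, smul_smul, mul_comm a₂ a₁]
      split_ifs with hz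
      · rw [← AddChar.map_add_eq_mul, norm_smul]
        congr 1
        linear_combination (-(a₁ * b₁ * Algebra.norm F x)) * had₂
      · rw [mul_zero]
    · rw [if_neg hc₂, if_neg (mul_ne_zero hd₁ hc₂), mul_left_comm, ← AddChar.map_add_eq_mul,
        norm_smul, planeB_smul_left]
      congr 2
      field_simp
      linear_combination
        (a₁ * a₂ * Algebra.norm F x + b₁ * c₂ * Algebra.norm F x - planeB F E x z) * had
  simp only [if_neg hc₁]
  rcases eq_or_ne c₂ 0 with rfl | hc₂
  · -- second matrix upper triangular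
    have had₂ : a₂ * d₂ = 1 := by linear_combination h₂
    have ha₂ : a₂ ≠ 0 := left_ne_zero_of_mul_eq_one had₂
    rw [Finset.sum_eq_single (a₂⁻¹ • z) (fun y _ hy => ?_)
      (fun h => absurd (Finset.mem_univ _) h)]
    · rw [if_pos rfl, if_pos (by rw [smul_inv_smul₀ ha₂]), if_neg (by simp [hc₁, ha₂]),
        mul_assoc, ← AddChar.map_add_eq_mul, norm_smul, planeB_smul_right]
      congr 2
      have hd₂ : d₂ = a₂⁻¹ := eq_inv_of_mul_eq_one_right had₂
      subst hd₂
      simp only [mul_zero, add_zero]
      field_simp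
      ring
    · rw [if_pos rfl, if_neg, mul_zero]
      intro hz
      exact hy (by rw [hz, inv_smul_smul₀ ha₂])
  -- both in the big cell
  set A : F := d₁ / c₁ + a₂ / c₂ with hA
  set v : E := c₁⁻¹ • x + c₂⁻¹ • z with hv
  set K : F := a₁ / c₁ * Algebra.norm F x + d₂ / c₂ * Algebra.norm F z with hK
  have hsummand : ∀ y : E,
      (-⅟(Fintype.card F : R) * ψ ((a₁ * Algebra.norm F x - planeB F E x y + d₁ * Algebra.norm F y) / c₁)) *
      (if c₂ = 0 then if z = a₂ • y then ψ (a₂ * b₂ * Algebra.norm F y) else 0 else
        -⅟(Fintype.card F : R) * ψ ((a₂ * Algebra.norm F y - planeB F E y z + d₂ * Algebra.norm F z) / c₂)) =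
      ⅟(Fintype.card F : R) * ⅟(Fintype.card F : R) * ψ K * ψ (A * Algebra.norm F y - planeB F E y v) := by
    intro y
    rw [if_neg hc₂, mul_mul_mul_comm, neg_mul_neg, ← AddChar.map_add_eq_mul, mul_assoc (⅟(Fintype.card F : R) * ⅟(Fintype.card F : R)) (ψ K),
      ← AddChar.map_add_eq_mul]
    congr 2
    rw [hA, hv, hK, planeB_add_right, planeB_smul_right, planeB_smul_right, planeB_comm x y]
    field_simp
    ring
  refine (Finset.sum_congr rfl fun y _ => hsummand y).trans ?_
  rw [← Finset.mul_sum]
  have hAc : A * (c₁ * c₂) = c₁ * a₂ + d₁ * c₂ := by rw [hA]; field_simp; ring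
  rcases eq_or_ne A 0 with hA0 | hA0
  · have hc : c₁ * a₂ + d₁ * c₂ = 0 := by rw [← hAc, hA0, zero_mul]
    rw [if_pos hc]
    simp only [hA0, zero_mul, zero_sub, sum_addChar_planeB hψ]
    have ha : a₁ * a₂ + b₁ * c₂ = -c₂ / c₁ := by
      field_simp
      linear_combination a₁ * hc - c₂ * h₁
    have hiff : v = 0 ↔ z = (a₁ * a₂ + b₁ * c₂) • x := by
      rw [hv, ha]
      constructor
      · intro h
        have h' := congrArg (c₂ • ·) (eq_neg_of_add_eq_zero_right h)
        simp only [smul_inv_smul₀ hc₂, smul_neg, smul_smul] at h'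
        rw [h', ← neg_smul, neg_div, div_eq_mul_inv]
      · intro h
        rw [h, smul_smul, ← add_smul, show c₁⁻¹ + c₂⁻¹ * (-c₂ / c₁) = 0 by field_simp; ring,
          zero_smul]
    by_cases hv0 : v = 0
    · rw [if_pos hv0, if_pos (hiff.mp hv0)]
      have hqq : ⅟(Fintype.card F : R) * ⅟(Fintype.card F : R) * ψ K * (Fintype.card F : R) ^ 2 = ψ K := by
        linear_combination ψ K * (⅟(Fintype.card F : R) * (Fintype.card F : R) + 1) * invOf_mul_self (Fintype.card F : R)
      rw [hqq, hK, hiff.mp hv0, norm_smul]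
      congr 1
      rw [ha]
      field_simp
      linear_combination (Algebra.norm F x * a₁ * d₂) * hc - (Algebra.norm F x * a₁ * c₁) * h₂
        - (Algebra.norm F x * d₂ * c₂) * h₁
    · rw [if_neg hv0, if_neg (fun h => hv0 (hiff.mpr h)), mul_zero]
  · have hc : c₁ * a₂ + d₁ * c₂ ≠ 0 := by
      rw [← hAc]; exact mul_ne_zero hA0 (mul_ne_zero hc₁ hc₂)
    rw [if_neg hc]
    have hsq : ∀ y : E, A * Algebra.norm F y - planeB F E y v =
        A * Algebra.norm F (-(A⁻¹ • v) + y) + -(Algebra.norm F v / A) := by
      intro y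
      rw [norm_add, ← neg_smul, norm_smul, planeB_smul_left, planeB_comm v y]
      field_simp
      ring
    simp only [hsq, AddChar.map_add_eq_mul, ← Finset.sum_mul]
    rw [Fintype.sum_bijective _ (AddGroup.addLeft_bijective (-(A⁻¹ • v)))
      (fun y : E => ψ (A * Algebra.norm F (-(A⁻¹ • v) + y)))
      (fun y : E => ψ (A * Algebra.norm F y)) (fun _ => rfl), sum_addChar_norm hψ hA0]
    have hqq : ⅟(Fintype.card F : R) * ⅟(Fintype.card F : R) * ψ K * (-(Fintype.card F : R) * ψ (-(Algebra.norm F v / A))) =
        -⅟(Fintype.card F : R) * (ψ K * ψ (-(Algebra.norm F v / A))) := by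
      linear_combination (-(⅟(Fintype.card F : R) * ψ K * ψ (-(Algebra.norm F v / A)))) * invOf_mul_self (Fintype.card F : R)
    rw [hqq, ← AddChar.map_add_eq_mul]
    congr 2
    rw [hv, norm_add, norm_smul, norm_smul, planeB_smul_left, planeB_smul_right, hK, hA]
    have hb₁ : b₁ = (a₁ * d₁ - 1) / c₁ := by field_simp; linear_combination -h₁
    have hb₂ : b₂ = (a₂ * d₂ - 1) / c₂ := by field_simp; linear_combination -h₂
    subst hb₁ hb₂
    have hc' : c₂ * d₁ + c₁ * a₂ ≠ 0 := by convert hc using 1; ring
    have hc'' : c₁ * a₂ + c₂ * d₁ ≠ 0 := by convert hc using 1; ring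
    field_simp
    ring

end Fermat.Agent.TwoAdic.Weil
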