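import Fermat.Agent.TwoAdic.Weil.Product
import Mathlib.Algebra.CharP.Invertible

/-!
# Functions of the norm signs commute with the Weil representation

Conjugation in one plane commutes with the kernels and acts on `cusp μ` as multiplication by
`μ (x̄ / x)`; if this is the quadratic character of the norm, multiplication by any function of
the signs `IsSquare (N xᵢ)` commutes with `SL₂`.

Owner: helper77 (LT2, P3b).
-/

set_option autoImplicit false
set_option linter.unusedSectionVars false

noncomputable section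

namespace Fermat.Agent.TwoAdic.Weil

open Finset
open scoped Classical Matrix

theorem planeB_conj {F E : Type*} [Field F] [Field E] [Fintype F] [Fintype E] [Algebra F E]
    [IsPlane F E] (x y : E) :
    planeB F E (planeConj F E x) (planeConj F E y) = planeB F E x y := by
  apply (algebraMap F E).injective
  rw [algebraMap_planeB, algebraMap_planeB, planeConj_planeConj, planeConj_planeConj]
  ring

theorem norm_planeConj {F E : Type*} [Field F] [Field E] [Fintype F] [Fintype E] [Algebra F E]
    [IsPlane F E] (x : E) : Algebra.norm F (planeConj F E x) = Algebra.norm F x := by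
  apply (algebraMap F E).injective
  rw [algebraMap_norm, algebraMap_norm, planeConj_planeConj]
  ring

theorem kern_planeConj {F E : Type*} [Field F] [Field E] [Fintype F] [Fintype E] [Algebra F E]
    [IsPlane F E] {R : Type*} [CommRing R] (ψ : AddChar F R) [Invertible (Fintype.card F : R)]
    (g : Matrix (Fin 2) (Fin 2) F) (x y : E) :
    kern ψ g (planeConj F E x) (planeConj F E y) = kern ψ g x y := by
  simp only [kern, norm_planeConj, planeB_conj, ← map_smul, (planeConj F E).injective.eq_iff]

variable {ι : Type*} [Fintype ι] {F E : ι → Type*}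
  [∀ i, Field (F i)] [∀ i, Field (E i)] [∀ i, Fintype (F i)] [∀ i, Fintype (E i)]
  [∀ i, Algebra (F i) (E i)] [∀ i, IsPlane (F i) (E i)]
  {A : Type*} [CommRing A] {R : Type*} [CommRing R] [IsDomain R]
  (d : Data A F R) (μ : ∀ i, (E i)ˣ →* Rˣ)

/-- Conjugation in the plane `i`. -/
def conjAt (i : ι) (x : ∀ j, E j) : ∀ j, E j := Function.update x i (planeConj (F i) (E i) (x i))

theorem conjAt_self (i : ι) (x : ∀ j, E j) :
    conjAt (F := F) i x i = planeConj (F i) (E i) (x i) := by simp [conjAt]

theorem conjAt_of_ne {i j : ι} (h : j ≠ i) (x : ∀ j, E j) : conjAt (F := F) i x j = x j := by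
  simp [conjAt, h]

theorem conjAt_involutive (i : ι) :
    Function.Involutive (conjAt (F := F) (E := E) i) := fun x => by
  funext j
  rcases eq_or_ne j i with rfl | hj
  · rw [conjAt_self, conjAt_self, planeConj_planeConj]
  · rw [conjAt_of_ne hj, conjAt_of_ne hj]

theorem kernP_conjAt (i : ι) (g : Matrix (Fin 2) (Fin 2) A) (x y : ∀ j, E j) :
    kernP d g (conjAt (F := F) i x) (conjAt (F := F) i y) = kernP d g x y := by
  refine Finset.prod_congr rfl fun j _ => ?_
  rcases eq_or_ne j i with rfl | hj
  · rw [conjAt_self, conjAt_self]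
    exact letI := d.inv j; kern_planeConj _ _ _ _
  · rw [conjAt_of_ne hj, conjAt_of_ne hj]

/-- The sign of the norm at `i`. -/
def normSign (i : ι) (x : ∀ j, E j) : R :=
  if IsSquare (Algebra.norm (F i) (x i)) then 1 else -1

/-- `μᵢ (x̄ / x)` is the sign of the norm. -/
def HasSign : Prop :=
  ∀ i (x : (E i)ˣ), ((μ i (Units.map (planeConj (F i) (E i) : E i →* E i) x * x⁻¹) : Rˣ) : R) =
    if IsSquare (Algebra.norm (F i) (x : E i)) then 1 else -1

variable {μ}

/-- Conjugation at one place is multiplication by the sign on `cusp μ`. -/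
theorem apply_conjAt (hμ : IsCuspidal (F := F) μ) (hs : HasSign (F := F) μ)
    (φ : cusp (F := F) μ) (i : ι) (x : ∀ j, E j) :
    (φ : (∀ j, E j) → R) (conjAt (F := F) i x) =
      normSign (F := F) i x * (φ : (∀ j, E j) → R) x := by
  by_cases hx : x i = 0
  · rw [apply_eq_zero_of_zero hμ φ hx,
      apply_eq_zero_of_zero hμ φ (i := i) (by simp [conjAt_self, hx]), mul_zero]
  set u : (E i)ˣ := Units.map (planeConj (F i) (E i) : E i →* E i) (Units.mk0 _ hx) *
    (Units.mk0 _ hx)⁻¹ with hu
  have hv : ∀ j, Algebra.norm (F j) ((Pi.mulSingle i u : ∀ j, (E j)ˣ) j : E j) = 1 := by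
    intro j
    rcases eq_or_ne j i with rfl | hj
    · rw [Pi.mulSingle_eq_same, hu, Units.val_mul, map_mul, Units.coe_map]
      show Algebra.norm (F j) (planeConj (F j) (E j) (x j)) * _ = 1
      rw [norm_planeConj, ← map_mul, Units.val_inv_eq_inv_val, Units.val_mk0,
        mul_inv_cancel₀ hx, map_one]
    · simp [hj]
  have hfix : scale (Pi.mulSingle i u) x = conjAt (F := F) i x := by
    funext j
    rcases eq_or_ne j i with rfl | hj
    · simp [scale, hu, conjAt_self, hx]
    · simp [scale, conjAt_of_ne hj, hj]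
  have hμv : muVal μ (Pi.mulSingle i u) = (μ i u : R) := by
    rw [muVal, Finset.prod_eq_single i (fun j _ hj => by simp [hj]) (by simp), Pi.mulSingle_eq_same]
  rw [← hfix, φ.2 _ hv x, hμv, hu, hs i (Units.mk0 _ hx), normSign, Units.val_mk0]

variable (μ) in
/-- Multiplication by `G` preserves `cusp μ` and commutes with the operators of determinant one. -/
def WeilCommutes (G : (∀ j, E j) → R) : Prop :=
  ∀ φ : cusp (F := F) μ, G * (φ : (∀ j, E j) → R) ∈ cusp (F := F) μ ∧
    ∀ g : Matrix (Fin 2) (Fin 2) A, g.det = 1 →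
      weilOp d g (G * (φ : (∀ j, E j) → R)) = G * weilOp d g φ

theorem WeilCommutes.const (c : R) : WeilCommutes d μ fun _ => c := by
  intro φ
  have h : (fun _ => c) * (φ : (∀ j, E j) → R) = c • (φ : (∀ j, E j) → R) := rfl
  refine ⟨h ▸ Submodule.smul_mem _ c φ.2, fun g _ => ?_⟩
  rw [h, map_smul]
  rfl

theorem WeilCommutes.add {G G' : (∀ j, E j) → R} (hG : WeilCommutes d μ G)
    (hG' : WeilCommutes d μ G') : WeilCommutes d μ (G + G') := fun φ =>
  ⟨by rw [add_mul]; exact Submodule.add_mem _ (hG φ).1 (hG' φ).1, fun g hg => by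
    rw [add_mul, map_add, (hG φ).2 g hg, (hG' φ).2 g hg, add_mul]⟩

theorem WeilCommutes.mul {G G' : (∀ j, E j) → R} (hG : WeilCommutes d μ G)
    (hG' : WeilCommutes d μ G') : WeilCommutes d μ (G * G') := fun φ =>
  ⟨by rw [mul_assoc]; exact (hG ⟨_, (hG' φ).1⟩).1, fun g hg => by
    rw [mul_assoc, (hG ⟨_, (hG' φ).1⟩).2 g hg, (hG' φ).2 g hg, mul_assoc]⟩

theorem WeilCommutes.sum {κ : Type*} (s : Finset κ) {G : κ → (∀ j, E j) → R}
    (h : ∀ k ∈ s, WeilCommutes d μ (G k)) : WeilCommutes d μ (∑ k ∈ s, G k) :=
  Finset.sum_induction _ _ (fun _ _ => WeilCommutes.add d) (WeilCommutes.const d 0) h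

theorem WeilCommutes.prod {κ : Type*} (s : Finset κ) {G : κ → (∀ j, E j) → R}
    (h : ∀ k ∈ s, WeilCommutes d μ (G k)) : WeilCommutes d μ (∏ k ∈ s, G k) :=
  Finset.prod_induction _ _ (fun _ _ => WeilCommutes.mul d) (WeilCommutes.const d 1) h

theorem weilCommutes_normSign (hμ : IsCuspidal (F := F) μ) (hs : HasSign (F := F) μ) (i : ι) :
    WeilCommutes d μ (normSign (F := F) (R := R) i) := by
  intro φ
  refine ⟨fun u hu x => ?_, fun g _ => funext fun x => ?_⟩
  · simp only [Pi.mul_apply, φ.2 u hu x]
    have : normSign (F := F) (R := R) i (scale u x) = normSign (F := F) i x := by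
      simp [normSign, scale, hu i]
    rw [this]
    ring
  · have h1 := apply_conjAt hμ hs (φ := ⟨_, weilOp_mem d (g := g) φ.2⟩) i x
    rw [Pi.mul_apply, ← h1, weilOp_apply]
    show _ = weilOp d g φ (conjAt (F := F) i x)
    rw [weilOp_apply, ← (conjAt_involutive (F := F) i).bijective.sum_comp
      fun y => kernP d g (conjAt (F := F) i x) y * (φ : (∀ j, E j) → R) y]
    refine Finset.sum_congr rfl fun y _ => ?_
    rw [kernP_conjAt, apply_conjAt hμ hs φ i y, Pi.mul_apply]

/-- Any function of the signs of the norms commutes, when `2` is invertible. -/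
theorem weilCommutes_of_signs (hμ : IsCuspidal (F := F) μ) (hs : HasSign (F := F) μ)
    [Invertible (2 : R)] (G : (ι → Bool) → R) :
    WeilCommutes d μ fun x => G fun i => decide (IsSquare (Algebra.norm (F i) (x i))) := by
  set ind : ι → Bool → (∀ j, E j) → R := fun i b => (fun _ => ⅟(2 : R)) *
    ((fun _ => 1) + (fun _ => if b then (1 : R) else -1) * normSign (F := F) i) with hind
  have hcomm : ∀ i b, WeilCommutes d μ (ind i b) := fun i b =>
    (WeilCommutes.const d _).mul d ((WeilCommutes.const d _).add d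
      ((WeilCommutes.const d _).mul d (weilCommutes_normSign d hμ hs i)))
  have heq : (fun x : ∀ j, E j => G fun i => decide (IsSquare (Algebra.norm (F i) (x i)))) =
      ∑ e : ι → Bool, (fun _ => G e) * ∏ i, ind i (e i) := by
    funext x
    have key : ∀ i b, ind i b x = if decide (IsSquare (Algebra.norm (F i) (x i))) = b
        then 1 else 0 := by
      intro i b
      simp only [hind, Pi.mul_apply, Pi.add_apply, normSign]
      by_cases hx : IsSquare (Algebra.norm (F i) (x i)) <;> cases b <;>
        simp [hx, ← two_mul, one_add_one_eq_two, invOf_mul_self]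
    simp only [Finset.sum_apply, Pi.mul_apply, Finset.prod_apply, key, Fintype.prod_ite_zero,
      Finset.prod_const_one, ← funext_iff, mul_ite, mul_one, mul_zero, Finset.sum_ite_eq,
      Finset.mem_univ, if_true]
  rw [heq]
  exact WeilCommutes.sum d _ fun e _ =>
    (WeilCommutes.const d _).mul d (WeilCommutes.prod d _ fun i _ => hcomm i (e i))

end Fermat.Agent.TwoAdic.Weil
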