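import Fermat.Agent.TwoAdic.Weil.Span
import Fermat.Agent.TwoAdic.Weil.Sign
import Mathlib.RepresentationTheory.Basic
import Mathlib.LinearAlgebra.Dual.Defs

/-!
# Conjugation intertwiners and the invariant pairing on the cuspidal Weil representation

`conjMap S` conjugates the coordinates in `S`; it intertwines `rep μ` with `rep (muFlip S μ)` and
sends `base μ` to `base (muFlip S μ)`.  `pairing` is the invariant perfect pairing of `cusp μ` with
itself: the sum over norm classes of `φ x * φ' (j x̄)` where `N j = -1` in every plane.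

Owner: helper62 (LT2).
-/

set_option autoImplicit false
set_option linter.unusedSectionVars false

noncomputable section

namespace Fermat.Agent.TwoAdic.Weil

open Finset
open scoped Classical Matrix

section plane

variable {F E : Type*} [Field F] [Field E] [Fintype F] [Fintype E] [Algebra F E] [IsPlane F E]

variable {R : Type*} [CommRing R] [IsDomain R] (ψ : AddChar F R)
  [Invertible (Fintype.card F : R)]

/-- The kernel of the inverse is the transposed kernel, read through `x ↦ j x̄` with `N j = -1`. -/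
theorem kern_adjugate {j : E} (hj : Algebra.norm F j = -1) (g : Matrix (Fin 2) (Fin 2) F)
    (hg : g.det = 1) (x y : E) :
    kern ψ g.adjugate (j * planeConj F E x) (j * planeConj F E y) = kern ψ g y x := by
  rw [Matrix.det_fin_two] at hg
  have hj0 : j ≠ 0 := fun h => by rw [h, Algebra.norm_zero] at hj; simp at hj
  simp only [kern, Matrix.adjugate_fin_two, Matrix.of_apply, Matrix.cons_val', Matrix.cons_val_zero,
    Matrix.cons_val_one, Matrix.empty_val', Matrix.cons_val_fin_one, neg_eq_zero, map_mul, hj,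
    norm_planeConj, planeB_mul_mul, planeB_conj]
  by_cases hc : g 1 0 = 0
  · rw [hc, mul_zero, sub_zero] at hg
    simp only [if_pos hc, ← mul_smul_comm, ← map_smul, mul_right_inj' hj0,
      (planeConj F E).injective.eq_iff]
    have hiff : y = g 1 1 • x ↔ x = g 0 0 • y := by
      constructor <;> rintro rfl
      · rw [smul_smul, hg, one_smul]
      · rw [smul_smul, mul_comm, hg, one_smul]
    by_cases h : y = g 1 1 • x
    · rw [if_pos h, if_pos (hiff.mp h)]
      congr 1
      conv_rhs => rw [h, norm_smul]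
      linear_combination (-(g 1 1 * g 0 1 * Algebra.norm F x)) * hg
    · rw [if_neg h, if_neg fun h' => h (hiff.mpr h')]
  · rw [if_neg hc, if_neg hc]
    congr 2
    rw [planeB_comm y x]
    field_simp
    ring

end plane

variable {ι : Type*} [Fintype ι] {F E : ι → Type*}
  [∀ i, Field (F i)] [∀ i, Field (E i)] [∀ i, Fintype (F i)] [∀ i, Fintype (E i)]
  [∀ i, Algebra (F i) (E i)] [∀ i, IsPlane (F i) (E i)]
  {A : Type*} [CommRing A] {R : Type*} [CommRing R] [IsDomain R]

/-! ### The conjugation intertwiners -/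

section conj

variable (F)

/-- Conjugate the coordinates in `S`. -/
def conjP (S : Finset ι) (x : ∀ i, E i) : ∀ i, E i :=
  fun i => if i ∈ S then planeConj (F i) (E i) (x i) else x i

theorem conjP_conjP (S : Finset ι) (x : ∀ i, E i) : conjP F S (conjP F S x) = x := by
  funext i
  by_cases h : i ∈ S <;> simp [conjP, h, planeConj_planeConj]

/-- Conjugation of the unit coordinates in `S`. -/
def conjU (S : Finset ι) (u : ∀ i, (E i)ˣ) : ∀ i, (E i)ˣ :=
  fun i => if i ∈ S then Units.map (planeConj (F i) (E i)).toAlgHom.toRingHom.toMonoidHom (u i)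
    else u i

theorem coe_conjU (S : Finset ι) (u : ∀ i, (E i)ˣ) (i : ι) :
    ((conjU F S u i : (E i)ˣ) : E i) = conjP F S (fun i => (u i : E i)) i := by
  by_cases h : i ∈ S <;> simp [conjU, conjP, h]

theorem norm_conjU (S : Finset ι) (u : ∀ i, (E i)ˣ) (i : ι) :
    Algebra.norm (F i) ((conjU F S u i : (E i)ˣ) : E i) = Algebra.norm (F i) (u i : E i) := by
  rw [coe_conjU]
  by_cases h : i ∈ S <;> simp [conjP, h, norm_planeConj]

theorem conjP_scale (S : Finset ι) (u : ∀ i, (E i)ˣ) (x : ∀ i, E i) :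
    conjP F S (scale u x) = scale (conjU F S u) (conjP F S x) := by
  funext i
  by_cases h : i ∈ S <;> simp [conjP, conjU, scale, h]

variable {F}

/-- The character inverted on the coordinates in `S`. -/
def muFlip (S : Finset ι) (μ : ∀ i, (E i)ˣ →* Rˣ) : ∀ i, (E i)ˣ →* Rˣ :=
  fun i => if i ∈ S then (μ i)⁻¹ else μ i

variable {μ : ∀ i, (E i)ˣ →* Rˣ}

theorem muFlip_muFlip (S : Finset ι) : muFlip S (muFlip S μ) = μ := by
  funext i
  refine MonoidHom.ext fun u => ?_
  by_cases h : i ∈ S <;> simp [muFlip, h]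

theorem isCuspidal_muFlip (hμ : IsCuspidal (F := F) μ) (S : Finset ι) :
    IsCuspidal (F := F) (muFlip S μ) where
  trivial i u a h := by
    by_cases hS : i ∈ S <;> simp [muFlip, hS, hμ.trivial i u a h]
  exists_ne_one i := by
    obtain ⟨u, hu, hne⟩ := hμ.exists_ne_one i
    refine ⟨u, hu, ?_⟩
    by_cases hS : i ∈ S <;> simp [muFlip, hS, hne]

theorem apply_conj (hμ : IsCuspidal (F := F) μ) (i : ι) (u : (E i)ˣ) :
    μ i (Units.map (planeConj (F i) (E i)).toAlgHom.toRingHom.toMonoidHom u) = (μ i u)⁻¹ :=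
  eq_inv_of_mul_eq_one_right <| by
    rw [← map_mul]
    exact hμ.trivial i _ (Algebra.norm (F i) (u : E i)) (algebraMap_norm _)

theorem muVal_conjU (hμ : IsCuspidal (F := F) μ) (S : Finset ι) (u : ∀ i, (E i)ˣ) :
    muVal μ (conjU F S u) = muVal (muFlip S μ) u := by
  refine Finset.prod_congr rfl fun i _ => ?_
  by_cases h : i ∈ S
  · simp only [conjU, muFlip, h, if_true, MonoidHom.inv_apply]
    exact congrArg Units.val (apply_conj hμ i (u i))
  · simp [conjU, muFlip, h]

theorem comp_conjP_mem (hμ : IsCuspidal (F := F) μ) (S : Finset ι) (φ : cusp (F := F) μ) :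
    (fun x => (φ : (∀ i, E i) → R) (conjP F S x)) ∈ cusp (F := F) (muFlip S μ) := by
  intro u hu x
  show (φ : (∀ i, E i) → R) (conjP F S (scale u x)) = _
  rw [conjP_scale, φ.2 _ (fun i => by rw [norm_conjU, hu i]), muVal_conjU hμ]

theorem comp_conjP_mem' (hμ : IsCuspidal (F := F) μ) (S : Finset ι)
    (φ : cusp (F := F) (muFlip S μ)) :
    (fun x => (φ : (∀ i, E i) → R) (conjP F S x)) ∈ cusp (F := F) μ := by
  have h := comp_conjP_mem (isCuspidal_muFlip hμ S) S φ
  rwa [muFlip_muFlip] at h

/-- Conjugating the coordinates in `S`. -/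
def conjMap (hμ : IsCuspidal (F := F) μ) (S : Finset ι) :
    cusp (F := F) μ ≃ₗ[R] cusp (F := F) (muFlip S μ) where
  toFun φ := ⟨_, comp_conjP_mem hμ S φ⟩
  invFun φ := ⟨_, comp_conjP_mem' hμ S φ⟩
  map_add' _ _ := rfl
  map_smul' _ _ := rfl
  left_inv φ := Subtype.ext <| funext fun x => by simp [conjP_conjP]
  right_inv φ := Subtype.ext <| funext fun x => by simp [conjP_conjP]

theorem conjMap_apply (hμ : IsCuspidal (F := F) μ) (S : Finset ι) (φ : cusp (F := F) μ)
    (x : ∀ i, E i) :
    (conjMap hμ S φ : (∀ i, E i) → R) x = (φ : (∀ i, E i) → R) (conjP F S x) := rfl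

variable (d : Data A F R)

theorem kernP_conjP (S : Finset ι) (g : Matrix (Fin 2) (Fin 2) A) (x y : ∀ i, E i) :
    kernP d g (conjP F S x) (conjP F S y) = kernP d g x y := by
  refine Finset.prod_congr rfl fun i _ => ?_
  letI := d.inv i
  by_cases h : i ∈ S <;> simp [conjP, h, kern_planeConj]

/-- `conjMap` commutes with the Weil operators. -/
theorem conjMap_weilCusp (hμ : IsCuspidal (F := F) μ) (S : Finset ι)
    (g : Matrix (Fin 2) (Fin 2) A) (φ : cusp (F := F) μ) :
    conjMap hμ S (weilCusp d g φ) = weilCusp d g (conjMap hμ S φ) := by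
  refine Subtype.ext <| funext fun x => ?_
  rw [conjMap_apply, coe_weilCusp, coe_weilCusp, weilOp_apply, weilOp_apply,
    ← (Function.Involutive.bijective (conjP_conjP F S)).sum_comp fun y =>
      kernP d g (conjP F S x) y * (φ : (∀ i, E i) → R) y]
  exact Finset.sum_congr rfl fun y _ => by rw [kernP_conjP, conjMap_apply]

theorem conjMap_dilOp (hμ : IsCuspidal (F := F) μ) (S : Finset ι) (h : ∀ i, (E i)ˣ)
    (φ : cusp (F := F) μ) :
    conjMap hμ S (dilOp μ h φ) = dilOp (muFlip S μ) h (conjMap hμ S φ) := by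
  rw [dilOp_eq_of_norm_eq (h := h) (h' := conjU F S h) (μ := μ)
    fun i => (norm_conjU F S h i).symm]
  refine Subtype.ext <| funext fun x => ?_
  rw [conjMap_apply, dilOp_apply, dilOp_apply, conjMap_apply, conjP_scale, ← muVal_conjU hμ S]
  congr 2
  funext i
  by_cases hS : i ∈ S <;> simp [conjU, hS]

/-- `conjMap` intertwines the representations. -/
theorem conjMap_rep (hμ : IsCuspidal (F := F) μ) (S : Finset ι) (g : GL (Fin 2) A)
    (φ : cusp (F := F) μ) :
    conjMap hμ S (rep d μ g φ) = rep d (muFlip S μ) g (conjMap hμ S φ) := by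
  rw [rep_apply, rep_apply, Module.End.mul_apply, Module.End.mul_apply, conjMap_dilOp,
    conjMap_weilCusp]

/-- `conjMap` sends `base μ` to `base (muFlip S μ)`. -/
theorem conjMap_base (hμ : IsCuspidal (F := F) μ) (S : Finset ι) :
    conjMap hμ S (base F μ) = base F (muFlip S μ) := by
  refine Subtype.ext <| funext fun x => ?_
  rw [conjMap_apply, coe_base, coe_base]
  have hne : ∀ i, conjP F S x i ≠ 0 ↔ x i ≠ 0 := fun i => by
    by_cases h : i ∈ S <;> simp [conjP, h]
  by_cases hx : ∀ i, x i ≠ 0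
  · rw [baseFun, baseFun, dif_pos hx, dif_pos fun i => (hne i).mpr (hx i),
      ← muVal_conjU hμ S]
    congr 1
    funext i
    exact Units.ext (coe_conjU F S (unitsOf x hx) i).symm
  · rw [baseFun, baseFun, dif_neg hx, dif_neg fun h => hx fun i => (hne i).mp (h i)]

end conj

/-! ### The invariant pairing -/

section pair

variable (F)

/-- The norms of a tuple of units. -/
def normU : (∀ i, (E i)ˣ) →* ∀ i, (F i)ˣ :=
  MonoidHom.mk' (fun v i => Units.map (Algebra.norm (F i)) (v i)) fun v w => by
    funext i; simp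

theorem normU_surjective : Function.Surjective (normU (E := E) F) := fun n => by
  choose s hs using fun i => FiniteField.norm_surjective (F i) (E i) (n i : F i)
  exact ⟨fun i => Units.mk0 (s i) fun h => (n i).ne_zero (by rw [← hs i, h, Algebra.norm_zero]),
    funext fun i => Units.ext (hs i)⟩

variable (E) in
/-- A chosen tuple with given norms. -/
def normRep (n : ∀ i, (F i)ˣ) : ∀ i, (E i)ˣ := (normU_surjective F n).choose

theorem normU_normRep (n : ∀ i, (F i)ˣ) : normU F (normRep F E n) = n :=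
  (normU_surjective F n).choose_spec

variable {F}

theorem normU_eq_one_iff (u : ∀ i, (E i)ˣ) :
    normU F u = 1 ↔ ∀ i, Algebra.norm (F i) (u i : E i) = 1 := by
  simp [normU, funext_iff, Units.ext_iff]

variable (F E) in
/-- A tuple of norm `-1`. -/
def negLift : ∀ i, (E i)ˣ := normRep F E (-1)

theorem norm_negLift (i : ι) : Algebra.norm (F i) (negLift F E i : E i) = -1 := by
  have h := congrArg (fun n : ∀ i, (F i)ˣ => ((n i : (F i)ˣ) : F i)) (normU_normRep F (E := E) (-1))
  simpa [normU, negLift] using h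

/-- A function on tuples of units, read on points. -/
def onUnits (φ : (∀ i, E i) → R) (v : ∀ i, (E i)ˣ) : R := φ fun i => (v i : E i)

variable (F) in
/-- `v ↦ j v̄`. -/
def antiU (v : ∀ i, (E i)ˣ) : ∀ i, (E i)ˣ := negLift F E * conjU F Finset.univ v

theorem antiU_bijective : Function.Bijective (antiU F (E := E)) := by
  refine (Group.mulLeft_bijective _).comp (Function.Involutive.bijective fun v => funext fun i => ?_)
  exact Units.ext (by simp [conjU, planeConj_planeConj])

theorem normU_antiU (v : ∀ i, (E i)ˣ) : normU F (antiU F v) = -normU F v := by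
  funext i
  exact Units.ext (by simp [normU, antiU, norm_negLift, norm_conjU])

variable {μ : ∀ i, (E i)ˣ →* Rˣ}

theorem onUnits_mul (φ : cusp (F := F) μ) {u : ∀ i, (E i)ˣ} (hu : normU F u = 1)
    (v : ∀ i, (E i)ˣ) :
    onUnits (φ : (∀ i, E i) → R) (u * v) = muVal μ u * onUnits (φ : (∀ i, E i) → R) v :=
  φ.2 u ((normU_eq_one_iff u).mp hu) fun i => (v i : E i)

theorem sum_eq_sum_units (hμ : IsCuspidal (F := F) μ) (φ : cusp (F := F) μ)
    (G : (∀ i, E i) → R) :
    ∑ x, G x * (φ : (∀ i, E i) → R) x =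
      ∑ v : ∀ i, (E i)ˣ, G (fun i => (v i : E i)) * onUnits (φ : (∀ i, E i) → R) v := by
  refine (Fintype.sum_of_injective (fun (v : ∀ i, (E i)ˣ) i => (v i : E i))
    (fun v w h => funext fun i => Units.ext (congrFun h i)) _
    (fun x => G x * (φ : (∀ i, E i) → R) x) (fun x hx => ?_) fun v => rfl).symm
  obtain ⟨i, hi⟩ : ∃ i, x i = 0 := by
    by_contra hcon
    push Not at hcon
    exact hx ⟨fun i => Units.mk0 (x i) (hcon i), rfl⟩
  rw [apply_eq_zero_of_zero hμ φ hi, mul_zero]

theorem onUnits_mul_antiU (hμ : IsCuspidal (F := F) μ) (φ φ' : cusp (F := F) μ)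
    {u : ∀ i, (E i)ˣ} (hu : normU F u = 1) (v : ∀ i, (E i)ˣ) :
    onUnits (φ : (∀ i, E i) → R) (u * v) * onUnits (φ' : (∀ i, E i) → R) (antiU F (u * v)) =
      onUnits (φ : (∀ i, E i) → R) v * onUnits (φ' : (∀ i, E i) → R) (antiU F v) := by
  have hu' : normU F (conjU F Finset.univ u) = 1 := (normU_eq_one_iff _).mpr fun i => by
    rw [norm_conjU]; exact (normU_eq_one_iff u).mp hu i
  have h : antiU F (u * v) = conjU F Finset.univ u * antiU F v := by
    funext i
    refine Units.ext ?_
    simp [antiU, conjU]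
    ring
  rw [h, onUnits_mul φ hu, onUnits_mul φ' hu', muVal_conjU hμ]
  have h1 : muVal (muFlip Finset.univ μ) u * muVal μ u = 1 := by
    rw [muVal, muVal, ← Finset.prod_mul_distrib]
    exact Finset.prod_eq_one fun i _ => by simp [muFlip]
  linear_combination (onUnits (φ : (∀ i, E i) → R) v *
    onUnits (φ' : (∀ i, E i) → R) (antiU F v)) * h1

/-- The invariant pairing on the cuspidal space. -/
def pairing : cusp (F := F) μ →ₗ[R] cusp (F := F) μ →ₗ[R] R :=
  LinearMap.mk₂ R (fun φ φ' => ∑ n : ∀ i, (F i)ˣ,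
      onUnits (φ : (∀ i, E i) → R) (normRep F E n) *
        onUnits (φ' : (∀ i, E i) → R) (antiU F (normRep F E n)))
    (fun φ₁ φ₂ φ' => by simp [onUnits, add_mul, Finset.sum_add_distrib])
    (fun c φ φ' => by simp [onUnits, Finset.mul_sum, mul_assoc])
    (fun φ φ₁ φ₂ => by simp [onUnits, mul_add, Finset.sum_add_distrib])
    (fun c φ φ' => by simp [onUnits, Finset.mul_sum, mul_left_comm])

theorem pairing_apply (φ φ' : cusp (F := F) μ) :
    pairing φ φ' = ∑ n : ∀ i, (F i)ˣ, onUnits (φ : (∀ i, E i) → R) (normRep F E n) *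
      onUnits (φ' : (∀ i, E i) → R) (antiU F (normRep F E n)) := rfl

/-- Summing over pairs up to simultaneous rotation, fixing either coordinate. -/
theorem sum_orbit_swap (f : (∀ i, (E i)ˣ) → (∀ i, (E i)ˣ) → R)
    (hf : ∀ u, normU F u = 1 → ∀ x y, f (u * x) (u * y) = f x y) :
    ∑ n : ∀ i, (F i)ˣ, ∑ y : ∀ i, (E i)ˣ, f (normRep F E n) y =
      ∑ n : ∀ i, (F i)ˣ, ∑ x : ∀ i, (E i)ˣ, f x (normRep F E n) := by
  rw [← Fintype.sum_prod_type', ← Fintype.sum_prod_type']
  refine Finset.sum_bij'
    (fun p _ => (normU F p.2, normRep F E (normU F p.2) * p.2⁻¹ * normRep F E p.1))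
    (fun p _ => (normU F p.2, normRep F E (normU F p.2) * p.2⁻¹ * normRep F E p.1))
    (fun _ _ => Finset.mem_univ _) (fun _ _ => Finset.mem_univ _) ?_ ?_ ?_
  · rintro ⟨n, y⟩ -
    simp [normU_normRep, mul_comm, mul_assoc, mul_left_comm]
  · rintro ⟨n, y⟩ -
    simp [normU_normRep, mul_comm, mul_assoc, mul_left_comm]
  · rintro ⟨n, y⟩ -
    simp only
    rw [← hf (normRep F E (normU F y) * y⁻¹) (by simp [normU_normRep]) (normRep F E n) y,
      inv_mul_cancel_right]

variable (d : Data A F R)

theorem kernP_units_mul {u : ∀ i, (E i)ˣ} (hu : normU F u = 1) (g : Matrix (Fin 2) (Fin 2) A)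
    (x y : ∀ i, (E i)ˣ) :
    kernP d g (fun i => ((u * x) i : E i)) (fun i => ((u * y) i : E i)) =
      kernP d g (fun i => (x i : E i)) (fun i => (y i : E i)) := by
  refine (kernP_scale d u 1 (fun i => by simpa using (normU_eq_one_iff u).mp hu i) g _ _).trans ?_
  rw [twistMat_eq]
  simp [← Matrix.one_fin_two]

theorem kernP_adjugate (g : Matrix (Fin 2) (Fin 2) A) (hg : g.det = 1) (x y : ∀ i, (E i)ˣ) :
    kernP d g.adjugate (fun i => (antiU F x i : E i)) (fun i => (antiU F y i : E i)) =
      kernP d g (fun i => (y i : E i)) (fun i => (x i : E i)) := by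
  refine Finset.prod_congr rfl fun i _ => ?_
  letI := d.inv i
  have hcoe : ∀ v : ∀ i, (E i)ˣ, (antiU F v i : E i) =
      negLift F E i * planeConj (F i) (E i) (v i : E i) := fun v => by simp [antiU, conjU]
  simp only [hcoe]
  rw [← RingHom.mapMatrix_apply, RingHom.map_adjugate]
  exact kern_adjugate _ (norm_negLift i) _ (by rw [← RingHom.map_det, hg, map_one]) _ _

/-- The Weil operators are adjoint to those of the inverse matrices. -/
theorem pairing_weilCusp_left (hμ : IsCuspidal (F := F) μ) (g : Matrix (Fin 2) (Fin 2) A)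
    (hg : g.det = 1) (φ φ' : cusp (F := F) μ) :
    pairing (weilCusp d g φ) φ' = pairing φ (weilCusp d g.adjugate φ') := by
  let f : (∀ i, (E i)ˣ) → (∀ i, (E i)ˣ) → R := fun x y =>
    kernP d g (fun i => (x i : E i)) (fun i => (y i : E i)) *
      (onUnits (φ : (∀ i, E i) → R) y * onUnits (φ' : (∀ i, E i) → R) (antiU F x))
  have hf : ∀ u, normU F u = 1 → ∀ x y, f (u * x) (u * y) = f x y := by
    intro u hu x y
    simp only [f]
    rw [kernP_units_mul d hu]
    congr 1
    have hu' : normU F (conjU F Finset.univ u) = 1 := (normU_eq_one_iff _).mpr fun i => by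
      rw [norm_conjU]; exact (normU_eq_one_iff u).mp hu i
    have h : antiU F (u * x) = conjU F Finset.univ u * antiU F x := by
      funext i
      refine Units.ext ?_
      simp [antiU, conjU]
      ring
    rw [h, onUnits_mul φ hu, onUnits_mul φ' hu', muVal_conjU hμ]
    have h1 : muVal (muFlip Finset.univ μ) u * muVal μ u = 1 := by
      rw [muVal, muVal, ← Finset.prod_mul_distrib]
      exact Finset.prod_eq_one fun i _ => by simp [muFlip]
    linear_combination (onUnits (φ : (∀ i, E i) → R) y *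
      onUnits (φ' : (∀ i, E i) → R) (antiU F x)) * h1
  have hl : ∀ x : ∀ i, (E i)ˣ, onUnits (weilCusp d g φ : (∀ i, E i) → R) x *
      onUnits (φ' : (∀ i, E i) → R) (antiU F x) = ∑ y, f x y := by
    intro x
    simp only [onUnits, coe_weilCusp, weilOp_apply]
    rw [sum_eq_sum_units hμ φ fun y => kernP d g (fun i => (x i : E i)) y, Finset.sum_mul]
    exact Finset.sum_congr rfl fun y _ => by simp only [f, onUnits]; ring
  have hr : ∀ y : ∀ i, (E i)ˣ, onUnits (φ : (∀ i, E i) → R) y *
      onUnits (weilCusp d g.adjugate φ' : (∀ i, E i) → R) (antiU F y) = ∑ x, f x y := by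
    intro y
    simp only [onUnits, coe_weilCusp, weilOp_apply]
    rw [sum_eq_sum_units hμ φ' fun z => kernP d g.adjugate (fun i => (antiU F y i : E i)) z,
      ← (antiU_bijective (F := F)).sum_comp, Finset.mul_sum]
    refine Finset.sum_congr rfl fun x _ => ?_
    rw [kernP_adjugate d g hg]
    simp only [f, onUnits]
    ring
  rw [pairing_apply, pairing_apply]
  simp only [hl, hr]
  exact sum_orbit_swap f hf

theorem pairing_weilCusp (hμ : IsCuspidal (F := F) μ) (g : Matrix (Fin 2) (Fin 2) A)
    (hg : g.det = 1) (φ φ' : cusp (F := F) μ) :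
    pairing (weilCusp d g φ) (weilCusp d g φ') = pairing φ φ' := by
  rw [pairing_weilCusp_left d hμ g hg, ← Module.End.mul_apply,
    ← weilCusp_mul (E := E) (μ := μ) d _ _ (by rw [Matrix.det_adjugate, hg, one_pow]) hg, Matrix.adjugate_mul, hg,
    one_smul, weilCusp_one, Module.End.one_apply]

theorem pairing_dilOp (hμ : IsCuspidal (F := F) μ) (h : ∀ i, (E i)ˣ) (φ φ' : cusp (F := F) μ) :
    pairing (dilOp μ h φ) (dilOp μ h φ') = pairing φ φ' := by
  rw [pairing_apply, pairing_apply,
    ← (Group.mulLeft_bijective (normU F h)).sum_comp fun n =>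
      onUnits (φ : (∀ i, E i) → R) (normRep F E n) *
        onUnits (φ' : (∀ i, E i) → R) (antiU F (normRep F E n))]
  refine Finset.sum_congr rfl fun n _ => ?_
  have hd : ∀ (ψ : cusp (F := F) μ) (v : ∀ i, (E i)ˣ),
      onUnits (dilOp μ h ψ : (∀ i, E i) → R) v =
        muVal μ h⁻¹ * onUnits (ψ : (∀ i, E i) → R) (h * v) := fun ψ v => rfl
  rw [hd, hd]
  set u := h * (conjU F Finset.univ h)⁻¹
  have hu : normU F u = 1 := (normU_eq_one_iff u).mpr fun i => by
    have h1 : Algebra.norm (F i) (u i : E i) * Algebra.norm (F i) (h i : E i) =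
        1 * Algebra.norm (F i) (h i : E i) := by
      conv_lhs => rw [← norm_conjU F Finset.univ h i, ← map_mul]
      simp [u, norm_conjU]
    exact mul_right_cancel₀ (fun e => (h i).ne_zero (Algebra.norm_eq_zero_iff.mp e)) h1
  have hanti : h * antiU F (normRep F E n) = u * antiU F (h * normRep F E n) := by
    funext i
    refine Units.ext ?_
    simp [u, antiU, conjU]
    field_simp
  set w := normRep F E (normU F h * n)
  have hnorm : normU F (h * normRep F E n * w⁻¹) = 1 := by
    simp [w, normU_normRep]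
  have hkey := onUnits_mul_antiU hμ φ φ' hnorm w
  rw [inv_mul_cancel_right] at hkey
  rw [hanti, onUnits_mul φ' hu, ← hkey]
  have hmu : muVal μ h⁻¹ * muVal μ h⁻¹ * muVal μ u = 1 := by
    have h1 : muVal μ (conjU F Finset.univ h)⁻¹ * muVal μ (conjU F Finset.univ h) = 1 :=
      muVal_inv_mul μ _
    have h2 : muVal μ (conjU F Finset.univ h) * muVal μ h = 1 := by
      rw [muVal_conjU hμ, muVal, muVal, ← Finset.prod_mul_distrib]
      exact Finset.prod_eq_one fun i _ => by simp [muFlip]
    rw [muVal_mul]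
    linear_combination (muVal μ (conjU F Finset.univ h)⁻¹ * muVal μ h⁻¹) * muVal_inv_mul μ h
      - muVal μ (conjU F Finset.univ h)⁻¹ * muVal μ h⁻¹ * h2
      + (muVal μ h⁻¹ * muVal μ h) * h1 + muVal_inv_mul μ h
  linear_combination (onUnits (φ : (∀ i, E i) → R) (h * normRep F E n) *
    onUnits (φ' : (∀ i, E i) → R) (antiU F (h * normRep F E n))) * hmu

/-- The pairing is invariant. -/
theorem pairing_rep (hμ : IsCuspidal (F := F) μ) (g : GL (Fin 2) A) (φ φ' : cusp (F := F) μ) :
    pairing (rep d μ g φ) (rep d μ g φ') = pairing φ φ' := by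
  rw [rep_apply, Module.End.mul_apply, Module.End.mul_apply, pairing_dilOp hμ,
    pairing_weilCusp d hμ _ (det_slPart g)]

/-- Coordinates: the values at the chosen representatives of the norm classes. -/
def coord : cusp (F := F) μ →ₗ[R] ((∀ i, (F i)ˣ) → R) where
  toFun φ n := onUnits (φ : (∀ i, E i) → R) (normRep F E n)
  map_add' _ _ := rfl
  map_smul' _ _ := rfl

theorem coord_apply (φ : cusp (F := F) μ) (n : ∀ i, (F i)ˣ) :
    coord φ n = onUnits (φ : (∀ i, E i) → R) (normRep F E n) := rfl

/-- The function on points with given coordinates. -/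
def fromCoord (a : (∀ i, (F i)ˣ) → R) (x : ∀ i, E i) : R :=
  if hx : ∀ i, x i ≠ 0 then
    muVal μ (unitsOf x hx * (normRep F E (normU F (unitsOf x hx)))⁻¹) * a (normU F (unitsOf x hx))
  else 0

theorem fromCoord_mem (a : (∀ i, (F i)ˣ) → R) :
    fromCoord (μ := μ) a ∈ cusp (F := F) μ := by
  intro u hu x
  by_cases hx : ∀ i, x i ≠ 0
  · have hx' : ∀ i, scale u x i ≠ 0 := fun i => mul_ne_zero (u i).ne_zero (hx i)
    have hux : unitsOf (scale u x) hx' = u * unitsOf x hx := funext fun i => Units.ext rfl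
    simp only [fromCoord]
    rw [dif_pos hx, dif_pos hx', hux, map_mul,
      (normU_eq_one_iff u).mpr hu, one_mul, mul_assoc u, muVal_mul, mul_assoc]
  · have hx' : ¬ ∀ i, scale u x i ≠ 0 := fun h => hx fun i e => h i (by simp [scale, e])
    simp only [fromCoord]
    rw [dif_neg hx, dif_neg hx', mul_zero]

theorem coord_fromCoord (a : (∀ i, (F i)ˣ) → R) :
    coord (μ := μ) ⟨fromCoord a, fromCoord_mem a⟩ = a := by
  funext n
  have hx : ∀ i, ((normRep F E n i : (E i)ˣ) : E i) ≠ 0 := fun i => Units.ne_zero _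
  have he : unitsOf _ hx = normRep F E n := funext fun i => Units.ext rfl
  simp only [coord_apply, onUnits, fromCoord]
  rw [dif_pos hx, he, normU_normRep, mul_inv_cancel]
  simp [muVal]

theorem coord_injective (hμ : IsCuspidal (F := F) μ) :
    Function.Injective (coord (μ := μ) (F := F)) := by
  refine (injective_iff_map_eq_zero _).mpr fun φ h => Subtype.ext <| funext fun x => ?_
  by_cases hx : ∀ i, x i ≠ 0
  · set v := unitsOf x hx
    have h1 := onUnits_mul φ (u := v * (normRep F E (normU F v))⁻¹) (by simp [normU_normRep])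
      (normRep F E (normU F v))
    rw [inv_mul_cancel_right, ← coord_apply, h, Pi.zero_apply, mul_zero] at h1
    exact h1
  · push Not at hx
    obtain ⟨i, hi⟩ := hx
    exact apply_eq_zero_of_zero hμ φ hi

/-- The coordinates form an isomorphism. -/
def coordEquiv (hμ : IsCuspidal (F := F) μ) : cusp (F := F) μ ≃ₗ[R] ((∀ i, (F i)ˣ) → R) :=
  LinearEquiv.ofBijective coord ⟨coord_injective hμ, fun a => ⟨_, coord_fromCoord a⟩⟩

/-- The delta functions. -/
def deltaBasis (hμ : IsCuspidal (F := F) μ) :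
    Module.Basis (∀ i, (F i)ˣ) R (cusp (F := F) μ) :=
  Module.Basis.ofEquivFun (coordEquiv hμ)

theorem coord_deltaBasis (hμ : IsCuspidal (F := F) μ) (n : ∀ i, (F i)ˣ) :
    coord (deltaBasis hμ n) = Pi.single n 1 :=
  (congrArg (coordEquiv hμ) (Module.Basis.coe_ofEquivFun (coordEquiv hμ) ▸ rfl :
    deltaBasis hμ n = (coordEquiv hμ).symm (Pi.single n 1))).trans
    ((coordEquiv hμ).apply_symm_apply _)

/-- The unit attached to a norm class by the pairing. -/
def pairUnit (μ : ∀ i, (E i)ˣ →* Rˣ) (n : ∀ i, (F i)ˣ) : R :=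
  muVal μ (antiU F (normRep F E n) * (normRep F E (-n))⁻¹)

theorem isUnit_pairUnit (n : ∀ i, (F i)ˣ) : IsUnit (pairUnit μ n) :=
  IsUnit.of_mul_eq_one_right _ (muVal_inv_mul μ _)

/-- The pairing in coordinates. -/
theorem pairing_eq_sum (φ φ' : cusp (F := F) μ) :
    pairing φ φ' = ∑ n : ∀ i, (F i)ˣ, coord φ n * (pairUnit μ n * coord φ' (-n)) := by
  rw [pairing_apply]
  refine Finset.sum_congr rfl fun n _ => ?_
  rw [coord_apply, coord_apply, pairUnit]
  congr 1
  rw [← onUnits_mul φ' (by simp [normU_antiU, normU_normRep]), inv_mul_cancel_right]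

theorem pairing_deltaBasis (hμ : IsCuspidal (F := F) μ) (m : ∀ i, (F i)ˣ)
    (φ' : cusp (F := F) μ) :
    pairing (deltaBasis hμ m) φ' = pairUnit μ m * coord φ' (-m) := by
  rw [pairing_eq_sum, coord_deltaBasis]
  simp [Pi.single_apply]

/-- The pairing is perfect. -/
theorem bijective_pairing (hμ : IsCuspidal (F := F) μ) :
    Function.Bijective (pairing : cusp (F := F) μ → Module.Dual R (cusp (F := F) μ)) := by
  refine ⟨(injective_iff_map_eq_zero _).mpr fun φ hφ => ?_, fun l => ?_⟩
  · refine coord_injective hμ ((funext fun n => ?_).trans (map_zero coord).symm)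
    have h := LinearMap.congr_fun hφ (deltaBasis hμ (-n))
    rw [pairing_eq_sum, coord_deltaBasis] at h
    simp only [Pi.single_apply, neg_inj, mul_ite, mul_one, mul_zero, Finset.sum_ite_eq',
      Finset.mem_univ, if_true, LinearMap.zero_apply] at h
    exact (isUnit_pairUnit (μ := μ) n).mul_left_eq_zero.mp h
  · choose c hc using fun n => (isUnit_pairUnit (μ := μ) (F := F) n).exists_left_inv
    obtain ⟨φ, hφ⟩ := (coordEquiv hμ).surjective fun n => c n * l (deltaBasis hμ (-n))
    refine ⟨φ, (deltaBasis hμ).ext fun m => ?_⟩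
    rw [pairing_eq_sum, coord_deltaBasis]
    simp only [Pi.single_apply, mul_ite, mul_one, mul_zero]
    rw [Finset.sum_eq_single (-m) (fun n _ hn => if_neg fun e => hn (by rw [← e, neg_neg]))
      (fun h => absurd (Finset.mem_univ _) h), if_pos (neg_neg m),
      show coord φ = coordEquiv hμ φ from rfl, hφ]
    simp only [neg_neg]
    linear_combination (l (deltaBasis hμ m)) * hc (-m)

/-- `cusp μ` is its own dual. -/
def pairingEquiv (hμ : IsCuspidal (F := F) μ) :
    cusp (F := F) μ ≃ₗ[R] Module.Dual R (cusp (F := F) μ) :=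
  LinearEquiv.ofBijective pairing (bijective_pairing hμ)

theorem pairingEquiv_rep (hμ : IsCuspidal (F := F) μ) (g : GL (Fin 2) A) (φ : cusp (F := F) μ) :
    pairingEquiv hμ (rep d μ g φ) = (rep d μ).dual g (pairingEquiv hμ φ) := by
  refine LinearMap.ext fun φ' => ?_
  show pairing (rep d μ g φ) φ' = pairing φ (rep d μ g⁻¹ φ')
  conv_lhs => rw [← (rep d μ).self_inv_apply g φ']
  exact pairing_rep d hμ g φ _

end pair

end Fermat.Agent.TwoAdic.Weil
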