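import Fermat.Agent.TwoAdic.Cohom.Defs
import Fermat.Agent.Periods.HeckePeriods
import Mathlib.NumberTheory.ModularForms.BoundedAtCusp
import Mathlib.NumberTheory.ModularForms.QExpansion

/-!
# Weight two forms of a given type

For a representation `σ` of `GL₂(ℤ/D)` on `W`, a form of type `σ` and level `M` is a linear map
`Φ` from `W` to holomorphic functions, bounded at all cusps, with `Φ (σ γ̄ w) ∣ γ = Φ w` on
`Γ₀(M)`. If no nonzero functional on `W` is invariant under a given translation, such a form is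
cuspidal. `T_p` is the coset sum, which is the transfer used for `H¹(Γ₀(M), σ^∨)`.

Owner: helper77 (LT2, P3b).
-/

set_option autoImplicit false

noncomputable section

namespace Fermat.Agent.TwoAdic.Weil

open UpperHalfPlane hiding I
open CongruenceSubgroup Function Filter Matrix.SpecialLinearGroup Fermat.Agent.Periods
open Fermat.Agent.TwoAdic.Cohom
open scoped MatrixGroups ModularForm Manifold Topology

variable (D M : ℕ) {W : Type*} [AddCommGroup W] [Module ℂ W]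
  (σ : Representation ℂ (GL (Fin 2) (ZMod D)) W)

/-- The reduction of an element of `SL(2, ℤ)`. -/
def redSL (δ : SL(2, ℤ)) : GL (Fin 2) (ZMod D) := red D (δ : IntMat)

theorem isUnit_det_sl (δ : SL(2, ℤ)) : IsUnit ((((δ : IntMat)).det : ℤ) : ZMod D) := by
  rw [Matrix.SpecialLinearGroup.det_coe, Int.cast_one]
  exact isUnit_one

theorem redSL_mul (δ ε : SL(2, ℤ)) : redSL D (δ * ε) = redSL D δ * redSL D ε := by
  rw [redSL, Matrix.SpecialLinearGroup.coe_mul, red_mul (isUnit_det_sl D δ) (isUnit_det_sl D ε)]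
  rfl

theorem redSL_one : redSL D 1 = 1 := by rw [redSL, Matrix.SpecialLinearGroup.coe_one, red_one]

/-- The forms of type `σ`. -/
def typeSpace : Submodule ℂ (W →ₗ[ℂ] (ℍ → ℂ)) where
  carrier := {Φ | (∀ w, MDiff (Φ w)) ∧
    (∀ w c, IsCusp c 𝒮ℒ → OnePoint.IsBoundedAt c (Φ w) 2) ∧
    ∀ γ ∈ Gamma0 M, ∀ w, Φ (σ (redSL D γ) w) ∣[(2 : ℤ)] γ = Φ w}
  zero_mem' := ⟨fun _ => mdifferentiable_const, fun _ _ _ g _ => by
    simp only [LinearMap.zero_apply, SlashAction.zero_slash]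
    exact Filter.const_boundedAtFilter _ (0 : ℂ), fun γ _ w => by
    simp only [LinearMap.zero_apply, SlashAction.zero_slash]⟩
  add_mem' {Φ Ψ} hΦ hΨ := ⟨fun w => (hΦ.1 w).add (hΨ.1 w),
    fun w c hc => (hΦ.2.1 w c hc).add (hΨ.2.1 w c hc), fun γ hγ w => by
    simp only [LinearMap.add_apply, SlashAction.add_slash, hΦ.2.2 γ hγ w, hΨ.2.2 γ hγ w]⟩
  smul_mem' a Φ hΦ := ⟨fun w => (hΦ.1 w).const_smul a, fun w c hc g hg => by
    simp only [LinearMap.smul_apply, ModularForm.smul_slash]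
    exact (hΦ.2.1 w c hc g hg).const_mul_left _, fun γ hγ w => by
    rw [LinearMap.smul_apply, LinearMap.smul_apply, ModularForm.SL_smul_slash, hΦ.2.2 γ hγ w]⟩

variable {D M σ}

theorem mdiff (Φ : typeSpace D M σ) (w : W) : MDiff (Φ.1 w) := Φ.2.1 w

theorem isBoundedAt (Φ : typeSpace D M σ) (w : W) {c : OnePoint ℝ} (hc : IsCusp c 𝒮ℒ) :
    OnePoint.IsBoundedAt c (Φ.1 w) 2 := Φ.2.2.1 w c hc

theorem slash_gamma0 (Φ : typeSpace D M σ) {γ : SL(2, ℤ)} (hγ : γ ∈ Gamma0 M) (w : W) :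
    Φ.1 (σ (redSL D γ) w) ∣[(2 : ℤ)] γ = Φ.1 w := Φ.2.2.2 γ hγ w

/-- The same form at a multiple of the level. -/
theorem typeSpace_mono {M' : ℕ} (h : M ∣ M') : typeSpace D M σ ≤ typeSpace D M' σ :=
  fun _ hΦ => ⟨hΦ.1, hΦ.2.1, fun γ hγ => hΦ.2.2 γ (Gamma0_mem.mpr (by
    have h' := Gamma0_mem.mp hγ
    have := congrArg (ZMod.castHom h (ZMod M)) h'
    simpa using this))⟩

/-! ### Hecke operators -/

theorem heckeGL_eq_map {p : ℕ} (hp : p ≠ 0) (i : HeckeIdx M p) :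
    ∃ g : GL (Fin 2) ℚ, heckeGL M p i = Matrix.GeneralLinearGroup.map (Rat.castHom ℝ) g := by
  refine ⟨Matrix.GeneralLinearGroup.mkOfDetNeZero ((heckeMat M p i).map (Int.cast : ℤ → ℚ)) ?_, ?_⟩
  · rw [show ((heckeMat M p i).map (Int.cast : ℤ → ℚ)) =
      (Int.castRingHom ℚ).mapMatrix (heckeMat M p i) from rfl, ← RingHom.map_det, heckeMat_det]
    simp [hp]
  · refine Units.ext ?_
    rw [val_heckeGL hp]
    ext a b
    simp [Matrix.GeneralLinearGroup.mkOfDetNeZero]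

theorem isCusp_map_smul {c : OnePoint ℝ} (hc : IsCusp c 𝒮ℒ) (g : GL (Fin 2) ℚ) :
    IsCusp (Matrix.GeneralLinearGroup.map (Rat.castHom ℝ) g • c) 𝒮ℒ := by
  rw [isCusp_SL2Z_iff] at hc ⊢
  obtain ⟨c, rfl⟩ := hc
  exact ⟨g • c, by rw [← Rat.coe_castHom, OnePoint.map_smul]⟩

theorem heckeGL_mul_gamma {p : ℕ} (hp : p.Prime) (γ : Gamma0 M) (i : HeckeIdx M p) :
    heckeGL M p i * mapGL ℝ (γ : SL(2, ℤ)) =
      mapGL ℝ ((transferElt hp γ i : Gamma0 M) : SL(2, ℤ)) * heckeGL M p (transferIdx hp γ i) := by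
  apply Matrix.GeneralLinearGroup.ext
  intro a b
  have h := congrArg (fun X : IntMat => X.map (Int.castRingHom ℝ)) (transfer_spec hp γ i)
  simp only [Matrix.map_mul] at h
  rw [Units.val_mul, Units.val_mul, val_heckeGL hp.ne_zero, val_heckeGL hp.ne_zero]
  exact congrFun (congrFun h a) b

variable (D M σ) in
/-- The Hecke sum on linear maps `W → (ℍ → ℂ)`. -/
def heckeMap (p : ℕ) : Module.End ℂ (W →ₗ[ℂ] (ℍ → ℂ)) where
  toFun Φ :=
    { toFun := fun w => ∑ i : HeckeIdx M p,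
        Φ (σ (red D (heckeMat M p i)) w) ∣[(2 : ℤ)] heckeGL M p i
      map_add' := fun w w' => by
        simp only [map_add, SlashAction.add_slash, Finset.sum_add_distrib]
      map_smul' := fun a w => by
        simp only [map_smul, ModularForm.smul_slash, RingHom.id_apply, Finset.smul_sum]
        refine Finset.sum_congr rfl fun i _ => ?_
        rw [UpperHalfPlane.σ, if_pos (by
          rw [Matrix.GeneralLinearGroup.val_det_apply]; exact det_heckeGL_pos i)]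
        rfl }
  map_add' Φ Ψ := LinearMap.ext fun w => by
    simp only [LinearMap.add_apply, SlashAction.add_slash, Finset.sum_add_distrib]
    rfl
  map_smul' a Φ := LinearMap.ext fun w => by
    change (∑ i : HeckeIdx M p, (a • Φ) (σ (red D (heckeMat M p i)) w) ∣[(2 : ℤ)] heckeGL M p i) =
      a • ∑ i : HeckeIdx M p, Φ (σ (red D (heckeMat M p i)) w) ∣[(2 : ℤ)] heckeGL M p i
    rw [Finset.smul_sum]
    refine Finset.sum_congr rfl fun i _ => ?_
    rw [LinearMap.smul_apply, ModularForm.smul_slash, UpperHalfPlane.σ, if_pos (by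
      rw [Matrix.GeneralLinearGroup.val_det_apply]; exact det_heckeGL_pos i)]
    rfl

theorem heckeMap_apply (p : ℕ) (Φ : W →ₗ[ℂ] (ℍ → ℂ)) (w : W) :
    heckeMap D M σ p Φ w = ∑ i : HeckeIdx M p,
      Φ (σ (red D (heckeMat M p i)) w) ∣[(2 : ℤ)] heckeGL M p i := rfl

theorem heckeMap_mem {p : ℕ} (hp : p.Prime) (hpD : p.Coprime D) {Φ : W →ₗ[ℂ] (ℍ → ℂ)}
    (hΦ : Φ ∈ typeSpace D M σ) : heckeMap D M σ p Φ ∈ typeSpace D M σ := by
  refine ⟨fun w => ?_, fun w c hc => ?_, fun γ hγ w => ?_⟩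
  · rw [heckeMap_apply]
    exact MDifferentiable.sum fun i _ => MDifferentiable.slash (hΦ.1 _) _ _
  · rw [heckeMap_apply]
    refine Finset.sum_induction _ (fun f => OnePoint.IsBoundedAt c f 2)
      (fun _ _ ha hb => ha.add hb) (fun g _ => ?_) fun i _ => ?_
    · rw [SlashAction.zero_slash]
      exact Filter.const_boundedAtFilter _ (0 : ℂ)
    · obtain ⟨g, hg⟩ := heckeGL_eq_map hp.ne_zero i
      rw [hg]
      exact OnePoint.IsBoundedAt.smul_iff.mp (hΦ.2.1 _ _ (isCusp_map_smul hc g))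
  · rw [heckeMap_apply, heckeMap_apply, SlashAction.sum_slash]
    refine Fintype.sum_bijective (transferIdx hp ⟨γ, hγ⟩) (transferIdx_bijective hp ⟨γ, hγ⟩) _ _
      fun i => ?_
    set g := transferElt hp (⟨γ, hγ⟩ : Gamma0 M) i
    set j := transferIdx hp (⟨γ, hγ⟩ : Gamma0 M) i
    have hred : red D (heckeMat M p i) * redSL D γ = redSL D g * red D (heckeMat M p j) := by
      have h := congrArg (red D) (transfer_spec hp (⟨γ, hγ⟩ : Gamma0 M) i)
      rwa [red_mul (isUnit_det_heckeMat hpD i) (isUnit_det_gammaMat _),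
        red_mul (isUnit_det_gammaMat _) (isUnit_det_heckeMat hpD j)] at h
    rw [← Module.End.mul_apply, ← map_mul, hred, map_mul, Module.End.mul_apply,
      ModularForm.SL_slash, ← SlashAction.slash_mul]
    erw [heckeGL_mul_gamma hp ⟨γ, hγ⟩ i]
    rw [SlashAction.slash_mul]
    exact congrArg (fun f : ℍ → ℂ => f ∣[(2 : ℤ)] heckeGL M p j) (hΦ.2.2 _ g.2 _)

variable (D M σ) in
/-- `T_p` (`U_p` for `p ∣ M`) on forms of type `σ`, for `p ∤ D`. -/
def heckeType {p : ℕ} (hp : p.Prime) (hpD : p.Coprime D) : Module.End ℂ (typeSpace D M σ) :=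
  (heckeMap D M σ p).restrict fun _ => heckeMap_mem hp hpD

theorem coe_heckeType {p : ℕ} (hp : p.Prime) (hpD : p.Coprime D) (Φ : typeSpace D M σ) :
    (heckeType D M σ hp hpD Φ).1 = heckeMap D M σ p Φ.1 := rfl

/-! ### Cuspidality -/

theorem redSL_T_zpow (n : ℤ) :
    (redSL D (ModularGroup.T ^ n) : Matrix (Fin 2) (Fin 2) (ZMod D)) = !![1, (n : ZMod D); 0, 1] := by
  rw [redSL, coe_red (isUnit_det_sl D _), ModularGroup.coe_T_zpow]
  ext a b; fin_cases a <;> fin_cases b <;> simp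

theorem redSL_T_zpow_eq_one {n : ℤ} (h : (D : ℤ) ∣ n) : redSL D (ModularGroup.T ^ n) = 1 :=
  Units.ext (by
    rw [redSL_T_zpow, (ZMod.intCast_zmod_eq_zero_iff_dvd n D).mpr h, Units.val_one,
      Matrix.one_fin_two])

theorem slash_T_zpow_apply (f : ℍ → ℂ) (n : ℤ) (τ : ℍ) :
    (f ∣[(2 : ℤ)] (ModularGroup.T ^ n)) τ = f ((n : ℝ) +ᵥ τ) := by
  rw [ModularForm.SL_slash_apply, UpperHalfPlane.modular_T_zpow_smul]
  have e : ((ModularGroup.T ^ n : SL(2, ℤ)) : Matrix (Fin 2) (Fin 2) ℤ) 1 0 = 0 ∧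
      ((ModularGroup.T ^ n : SL(2, ℤ)) : Matrix (Fin 2) (Fin 2) ℤ) 1 1 = 1 := by
    rw [ModularGroup.coe_T_zpow]
    simp
  rw [ModularGroup.denom_apply, e.1, e.2]
  simp

/-- Translation invariance of the translate of a form to a cusp. -/
theorem slash_translate (Φ : typeSpace D M σ) (δ : SL(2, ℤ)) {n : ℤ}
    (hn : δ * ModularGroup.T ^ n * δ⁻¹ ∈ Gamma0 M) (w : W) :
    (Φ.1 (σ (redSL D δ) (σ (redSL D (ModularGroup.T ^ n)) w)) ∣[(2 : ℤ)] δ)
      ∣[(2 : ℤ)] (ModularGroup.T ^ n) = Φ.1 (σ (redSL D δ) w) ∣[(2 : ℤ)] δ := by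
  rw [← Module.End.mul_apply, ← map_mul, ← redSL_mul, ← SlashAction.slash_mul,
    show δ * (ModularGroup.T ^ n : SL(2, ℤ)) = δ * ModularGroup.T ^ n * δ⁻¹ * δ by group,
    SlashAction.slash_mul, redSL_mul, map_mul, Module.End.mul_apply, slash_gamma0 Φ hn]

theorem conj_T_zpow_mem {n : ℤ} (h : (M : ℤ) ∣ n) (δ : SL(2, ℤ)) :
    δ * ModularGroup.T ^ n * δ⁻¹ ∈ Gamma0 M := by
  obtain ⟨k, rfl⟩ := h
  rw [_root_.zpow_mul, conj_zpow.symm]
  exact Subgroup.zpow_mem _ (conj_T_pow_mem_Gamma0 M δ) k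

theorem exists_tendsto [NeZero D] [NeZero M] (Φ : typeSpace D M σ) (δ : SL(2, ℤ)) (w : W) :
    ∃ L : ℂ, Tendsto (Φ.1 (σ (redSL D δ) w) ∣[(2 : ℤ)] δ) atImInfty (𝓝 L) := by
  set g := Φ.1 (σ (redSL D δ) w) ∣[(2 : ℤ)] δ with hg
  have hinv : ∀ τ : ℍ, g (((M * D : ℕ) : ℝ) +ᵥ τ) = g τ := by
    intro τ
    have h := congrFun (slash_translate Φ δ (n := ((M * D : ℕ) : ℤ))
      (conj_T_zpow_mem (by simp) δ) w) τ
    rw [redSL_T_zpow_eq_one (by simp), map_one, Module.End.one_apply, slash_T_zpow_apply] at h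
    exact_mod_cast h
  have hper : Periodic (g ∘ ofComplex) (((M * D : ℕ) : ℝ) : ℂ) := by
    intro z
    by_cases hz : 0 < z.im
    · have hz' : 0 < (z + (((M * D : ℕ) : ℝ) : ℂ)).im := by simpa using hz
      simp only [Function.comp_apply, ofComplex_apply_of_im_pos hz, ofComplex_apply_of_im_pos hz']
      convert hinv ⟨z, hz⟩ using 2
      ext
      simp [add_comm]
    · have hz' : (z + (((M * D : ℕ) : ℝ) : ℂ)).im ≤ 0 := by simpa using hz
      simp only [Function.comp_apply, ofComplex_apply_of_im_nonpos (not_lt.mp hz),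
        ofComplex_apply_of_im_nonpos hz']
  have hpos : (0 : ℝ) < ((M * D : ℕ) : ℝ) :=
    Nat.cast_pos.mpr (Nat.mul_pos (NeZero.pos M) (NeZero.pos D))
  have hhol : MDiff g := MDifferentiable.slash (mdiff Φ _) _ _
  have hbdd : IsBoundedAtImInfty g :=
    isBoundedAt Φ (σ (redSL D δ) w) (isCusp_SL2Z_iff'.mpr ⟨δ, rfl⟩) (mapGL ℝ δ) rfl
  refine ⟨cuspFunction ((M * D : ℕ) : ℝ) g 0, ?_⟩
  have hc := ((analyticAt_cuspFunction_zero hpos hper hhol hbdd).continuousAt.tendsto).comp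
    (qParam_tendsto_atImInfty hpos)
  exact hc.congr fun τ => (eq_cuspFunction τ hpos.ne' hper)

/-- If no nonzero functional is invariant under a translation, the form is cuspidal. -/
theorem isZeroAt [NeZero D] [NeZero M] (hMD : M.Coprime D) {b : ZMod D}
    (hkill : ∀ f : W →ₗ[ℂ] ℂ, (∀ g : GL (Fin 2) (ZMod D),
      (g : Matrix (Fin 2) (Fin 2) (ZMod D)) = !![1, b; 0, 1] → f ∘ₗ σ g = f) → f = 0)
    (Φ : typeSpace D M σ) (w : W) {c : OnePoint ℝ} (hc : IsCusp c 𝒮ℒ) :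
    OnePoint.IsZeroAt c (Φ.1 w) 2 := by
  rw [OnePoint.isZeroAt_iff_forall_SL2Z hc]
  intro δ _
  choose L hL using exists_tendsto Φ δ
  let lam : W →ₗ[ℂ] ℂ :=
    { toFun := L
      map_add' := fun u v => tendsto_nhds_unique (hL (u + v)) (by
        have h := (hL u).add (hL v)
        simp only [map_add, SlashAction.add_slash]
        exact h)
      map_smul' := fun a u => tendsto_nhds_unique (hL (a • u)) (by
        have h := (hL u).const_mul a
        simp only [map_smul, ModularForm.SL_smul_slash]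
        exact h) }
  obtain ⟨k, hk⟩ : ∃ k : ℤ, (((M : ℤ) * k : ℤ) : ZMod D) = b := by
    obtain ⟨v, hv⟩ : IsUnit (M : ZMod D) := (ZMod.isUnit_iff_coprime M D).mpr hMD
    obtain ⟨k, hk⟩ := ZMod.intCast_surjective (((v⁻¹ : (ZMod D)ˣ) : ZMod D) * b)
    exact ⟨k, by rw [Int.cast_mul, hk, Int.cast_natCast, ← hv, ← mul_assoc, Units.mul_inv,
      one_mul]⟩
  set n : ℤ := (M : ℤ) * k
  have hlam : lam = 0 := hkill lam fun g hg => by
    obtain rfl : g = redSL D (ModularGroup.T ^ n) := Units.ext (by rw [hg, redSL_T_zpow, hk])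
    refine LinearMap.ext fun u => tendsto_nhds_unique ?_ (hL u)
    have hsh : Tendsto (fun τ : ℍ => (n : ℝ) +ᵥ τ) atImInfty atImInfty := by
      rw [atImInfty, tendsto_comap_iff]
      simpa [Function.comp_def] using tendsto_comap
    refine ((hL (σ (redSL D (ModularGroup.T ^ n)) u)).comp hsh).congr fun τ => ?_
    rw [← slash_translate Φ δ (conj_T_zpow_mem (dvd_mul_right _ _) δ) u, slash_T_zpow_apply]
    rfl
  have h := hL (σ (redSL D δ⁻¹) w)
  rw [← Module.End.mul_apply (f := σ (redSL D δ)), ← map_mul, ← redSL_mul, mul_inv_cancel, redSL_one,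
    map_one, Module.End.one_apply, show L (σ (redSL D δ⁻¹) w) = 0 from LinearMap.congr_fun hlam _]
    at h
  exact h

/-! ### Evaluation at a torus invariant vector -/

variable (D) in
/-- The function `Φ w₀ ∣ diag(D, 1)`. -/
def evalFun (w₀ : W) (Φ : W →ₗ[ℂ] (ℍ → ℂ)) : ℍ → ℂ :=
  Φ w₀ ∣[(2 : ℤ)] ModularForm.heckeDiagMatrix D

theorem evalFun_eq_zero [NeZero D] {w₀ : W}
    (hspan : Submodule.span ℂ {w | ∃ g : GL (Fin 2) (ZMod D), ∃ b : ZMod D,
      (g : Matrix (Fin 2) (Fin 2) (ZMod D)) = !![1, b; 0, 1] ∧ σ g w₀ = w} = ⊤)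
    (Φ : typeSpace D M σ) (h : evalFun D w₀ Φ.1 = 0) : Φ = 0 := by
  have h0 : Φ.1 w₀ = 0 := by
    have h' := congrArg (fun f : ℍ → ℂ => f ∣[(2 : ℤ)] (ModularForm.heckeDiagMatrix D)⁻¹) h
    simpa [evalFun, ← SlashAction.slash_mul] using h'
  refine Subtype.ext (LinearMap.ext_on hspan ?_)
  rintro w ⟨g, b, hg, rfl⟩
  obtain ⟨n, rfl⟩ := ZMod.intCast_surjective b
  obtain rfl : g = redSL D (ModularGroup.T ^ n) := Units.ext (by rw [hg, redSL_T_zpow])
  have hT : (ModularGroup.T ^ n : SL(2, ℤ)) ∈ Gamma0 M := Gamma0_mem.mpr (by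
    rw [ModularGroup.coe_T_zpow]; simp)
  have h1 := slash_gamma0 Φ hT w₀
  rw [h0] at h1
  have h2 := congrArg (fun f : ℍ → ℂ => f ∣[(2 : ℤ)] (ModularGroup.T ^ n)⁻¹) h1
  simpa [← SlashAction.slash_mul] using h2

end Fermat.Agent.TwoAdic.Weil
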