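import Fermat.Agent.TwoAdic.Weil.Plane
import Mathlib.Algebra.BigOperators.Ring.Finset
import Mathlib.LinearAlgebra.Pi
import Mathlib.RepresentationTheory.Basic
import Mathlib.LinearAlgebra.Matrix.GeneralLinearGroup.Defs

/-!
# The cuspidal Weil representation of `GL₂` attached to a product of planes

`A` is a ring with maps to finitely many finite fields `Fᵢ`, each with a plane `Eᵢ/Fᵢ`, and `μᵢ` is a
character of `Eᵢˣ` trivial on `Fᵢˣ`. The space `cusp μ` consists of the functions on `∏ Eᵢ` with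
`φ (u x) = μ u φ x` for `u` of norm one; `GL₂(A)` acts by the Weil kernels on `SL₂` and by
`φ ↦ μ(h)⁻¹ φ(h x)` for `diag(N h, 1)`.

Owner: helper77 (LT2, P3b).
-/

set_option autoImplicit false
set_option linter.unusedSectionVars false

noncomputable section

namespace Fermat.Agent.TwoAdic.Weil

open Finset
open scoped Classical Matrix

variable {ι : Type*} [Fintype ι] {F E : ι → Type*}
  [∀ i, Field (F i)] [∀ i, Field (E i)] [∀ i, Fintype (F i)] [∀ i, Fintype (E i)]
  [∀ i, Algebra (F i) (E i)] [∀ i, IsPlane (F i) (E i)]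
  {A : Type*} [CommRing A] {R : Type*} [CommRing R] [IsDomain R]

/-- The local data: reduction maps, additive characters, invertibility of the orders. -/
structure Data (A : Type*) [CommRing A] (F : ι → Type*) [∀ i, Field (F i)] [∀ i, Fintype (F i)]
    (R : Type*) [CommRing R] where
  /-- the reduction maps -/
  proj : ∀ i, A →+* F i
  /-- the additive characters -/
  char : ∀ i, AddChar (F i) R
  char_ne : ∀ i, char i ≠ 1
  /-- `#Fᵢ` is invertible -/
  inv : ∀ i, Invertible (Fintype.card (F i) : R)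

variable (d : Data A F R)

/-- The product kernel of a matrix. -/
def kernP (g : Matrix (Fin 2) (Fin 2) A) (x y : ∀ i, E i) : R :=
  ∏ i, letI := d.inv i; kern (d.char i) (g.map (d.proj i)) (x i) (y i)

theorem kernP_one (x y : ∀ i, E i) : kernP d 1 x y = if y = x then 1 else 0 := by
  simp only [kernP, Matrix.map_one _ (map_zero _) (map_one _), kern_one]
  rw [Fintype.prod_ite_zero]
  simp [funext_iff]

theorem sum_kernP_mul_kernP (g h : Matrix (Fin 2) (Fin 2) A) (hg : g.det = 1) (hh : h.det = 1)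
    (x z : ∀ i, E i) : ∑ y, kernP d g x y * kernP d h y z = kernP d (g * h) x z := by
  simp only [kernP, ← Finset.prod_mul_distrib]
  rw [← Fintype.piFinset_univ, ← Finset.prod_univ_sum (fun _ => univ)
    fun i y => (letI := d.inv i; kern (d.char i) (g.map (d.proj i)) (x i) y) *
      (letI := d.inv i; kern (d.char i) (h.map (d.proj i)) y (z i))]
  refine Finset.prod_congr rfl fun i _ => ?_
  letI := d.inv i
  rw [sum_kern_mul_kern (d.char_ne i) _ _
    (by rw [← RingHom.mapMatrix_apply, ← RingHom.map_det, hg, map_one])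
    (by rw [← RingHom.mapMatrix_apply, ← RingHom.map_det, hh, map_one]), Matrix.map_mul]

/-- The Weil operator of a matrix of determinant one. -/
def weilOp (g : Matrix (Fin 2) (Fin 2) A) : Module.End R ((∀ i, E i) → R) where
  toFun φ x := ∑ y, kernP d g x y * φ y
  map_add' φ φ' := by funext x; simp [mul_add, Finset.sum_add_distrib]
  map_smul' c φ := by funext x; simp [Finset.mul_sum, mul_left_comm]

theorem weilOp_apply (g : Matrix (Fin 2) (Fin 2) A) (φ : (∀ i, E i) → R) (x : ∀ i, E i) :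
    weilOp d g φ x = ∑ y, kernP d g x y * φ y := rfl

theorem weilOp_one : weilOp (E := E) d 1 = 1 := by
  refine LinearMap.ext fun φ => funext fun x => ?_
  simp [weilOp_apply, kernP_one]

theorem weilOp_mul (g h : Matrix (Fin 2) (Fin 2) A) (hg : g.det = 1) (hh : h.det = 1) :
    weilOp (E := E) d (g * h) = weilOp d g * weilOp d h := by
  refine LinearMap.ext fun φ => funext fun x => ?_
  simp only [Module.End.mul_apply, weilOp_apply, ← sum_kernP_mul_kernP d g h hg hh, Finset.sum_mul,
    Finset.mul_sum]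
  rw [Finset.sum_comm]
  simp [mul_assoc]

/-- Conjugation by `diag(t, 1)`. -/
def twistMat (t : Aˣ) (s : Matrix (Fin 2) (Fin 2) A) : Matrix (Fin 2) (Fin 2) A :=
  !![s 0 0, t * s 0 1; (↑t⁻¹ : A) * s 1 0, s 1 1]

theorem twistMat_eq (t : Aˣ) (s : Matrix (Fin 2) (Fin 2) A) :
    twistMat t s = !![(t : A), 0; 0, 1] * s * !![(↑t⁻¹ : A), 0; 0, 1] := by
  conv_rhs => rw [Matrix.eta_fin_two s]
  simp only [Matrix.mul_fin_two, twistMat]
  congrm !![?_, ?_; ?_, ?_]
  · linear_combination (-(s 0 0)) * t.mul_inv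
  all_goals ring

theorem det_twistMat (t : Aˣ) (s : Matrix (Fin 2) (Fin 2) A) : (twistMat t s).det = s.det := by
  rw [twistMat, Matrix.det_fin_two_of, Matrix.det_fin_two]
  linear_combination (-(s 0 1 * s 1 0)) * t.mul_inv

/-- `h ∈ ∏ Eᵢˣ` has norm the image of `t`. -/
def IsNormLift (h : ∀ i, (E i)ˣ) (t : A) : Prop :=
  ∀ i, Algebra.norm (F i) (h i : E i) = d.proj i t

theorem exists_isNormLift (t : Aˣ) : ∃ h : ∀ i, (E i)ˣ, IsNormLift d h (t : A) := by
  have key : ∀ i, ∃ h : (E i)ˣ, Algebra.norm (F i) (h : E i) = d.proj i t := by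
    intro i
    obtain ⟨x, hx⟩ := FiniteField.norm_surjective (F i) (E i) (d.proj i (t : A))
    have hx0 : x ≠ 0 := by
      rintro rfl
      rw [Algebra.norm_zero] at hx
      exact (t.isUnit.map (d.proj i)).ne_zero hx.symm
    exact ⟨Units.mk0 x hx0, hx⟩
  choose h hh using key
  exact ⟨h, hh⟩

/-- Multiplication of a point by a family of units. -/
def scale (h : ∀ i, (E i)ˣ) (x : ∀ i, E i) : ∀ i, E i := fun i => (h i : E i) * x i

theorem scale_one (x : ∀ i, E i) : scale 1 x = x := by funext i; simp [scale]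

theorem scale_scale (h h' : ∀ i, (E i)ˣ) (x : ∀ i, E i) :
    scale h (scale h' x) = scale (h * h') x := by
  funext i; simp [scale, mul_assoc]

theorem scale_bijective (h : ∀ i, (E i)ˣ) : Function.Bijective (scale h) :=
  Function.bijective_iff_has_inverse.mpr ⟨scale h⁻¹,
    fun x => by funext i; simp [scale], fun x => by funext i; simp [scale]⟩

theorem kern_scale {F' E' : Type*} [Field F'] [Field E'] [Fintype F'] [Fintype E'] [Algebra F' E']
    [IsPlane F' E'] (ψ : AddChar F' R) [Invertible (Fintype.card F' : R)] (h : E') (hh : h ≠ 0)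
    (a b c e : F') (x y : E') :
    kern ψ !![a, b; c, e] (h * x) (h * y) =
      kern ψ !![a, Algebra.norm F' h * b; (Algebra.norm F' h)⁻¹ * c, e] x y := by
  have hN : Algebra.norm F' h ≠ 0 := fun e => hh (Algebra.norm_eq_zero_iff.mp e)
  simp only [kern, Matrix.of_apply, Matrix.cons_val', Matrix.cons_val_zero, Matrix.cons_val_one,
    Matrix.empty_val', Matrix.cons_val_fin_one, map_mul, planeB_mul_mul, mul_eq_zero,
    inv_eq_zero, hN, false_or, ← mul_smul_comm, mul_right_inj' hh]
  split_ifs with h0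
  · congr 1; ring
  · rfl
  · congr 2
    field_simp

theorem kernP_scale (h : ∀ i, (E i)ˣ) (t : Aˣ) (hl : IsNormLift d h (t : A))
    (s : Matrix (Fin 2) (Fin 2) A) (x y : ∀ i, E i) :
    kernP d s (scale h x) (scale h y) = kernP d (twistMat t s) x y := by
  refine Finset.prod_congr rfl fun i _ => ?_
  letI := d.inv i
  conv_lhs => rw [Matrix.eta_fin_two (s.map (d.proj i))]
  rw [scale, scale, kern_scale _ _ (h i).ne_zero, hl i]
  congr 1
  rw [Matrix.eta_fin_two ((twistMat t s).map (d.proj i))]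
  simp [twistMat, map_units_inv]

variable (μ : ∀ i, (E i)ˣ →* Rˣ)

/-- The value of the product character. -/
def muVal (u : ∀ i, (E i)ˣ) : R := ∏ i, ((μ i (u i) : Rˣ) : R)

theorem muVal_mul (u v : ∀ i, (E i)ˣ) : muVal μ (u * v) = muVal μ u * muVal μ v := by
  simp [muVal, Finset.prod_mul_distrib]

theorem muVal_inv_mul (u : ∀ i, (E i)ˣ) : muVal μ u⁻¹ * muVal μ u = 1 := by
  rw [← muVal_mul, inv_mul_cancel]; simp [muVal]

/-- `μ` is trivial on `Fˣ` and nontrivial on the norm one elements. -/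
structure IsCuspidal : Prop where
  trivial : ∀ i (u : (E i)ˣ) (a : F i), algebraMap (F i) (E i) a = u → μ i u = 1
  exists_ne_one : ∀ i, ∃ u : (E i)ˣ, Algebra.norm (F i) (u : E i) = 1 ∧ μ i u ≠ 1

/-- The space of the cuspidal representation. -/
def cusp : Submodule R ((∀ i, E i) → R) where
  carrier := {φ | ∀ u : ∀ i, (E i)ˣ, (∀ i, Algebra.norm (F i) (u i : E i) = 1) →
    ∀ x, φ (scale u x) = muVal μ u * φ x}
  zero_mem' := by intro u _ x; simp
  add_mem' {φ φ'} h h' := by intro u hu x; simp [h u hu x, h' u hu x, mul_add]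
  smul_mem' c φ h := by intro u hu x; simp [h u hu x, mul_left_comm]

variable {μ}

theorem apply_eq_zero_of_zero (hμ : IsCuspidal (F := F) μ) (φ : cusp (F := F) μ) {x : ∀ i, E i}
    {i : ι} (hx : x i = 0) : (φ : (∀ i, E i) → R) x = 0 := by
  obtain ⟨u, hu, hne⟩ := hμ.exists_ne_one i
  have hv : ∀ j, Algebra.norm (F j) ((Pi.mulSingle i u : ∀ j, (E j)ˣ) j : E j) = 1 := by
    intro j
    rcases eq_or_ne j i with rfl | hj
    · simpa using hu
    · simp [hj]
  have hfix : scale (Pi.mulSingle i u) x = x := by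
    funext j
    rcases eq_or_ne j i with rfl | hj
    · simp [scale, hx]
    · simp [scale, hj]
  have hμv : muVal μ (Pi.mulSingle i u) = (μ i u : R) := by
    rw [muVal, Finset.prod_eq_single i (fun j _ hj => by simp [hj]) (by simp), Pi.mulSingle_eq_same]
  have h := φ.2 _ hv x
  rw [hfix, hμv] at h
  rcases mul_eq_zero.mp (show ((μ i u : R) - 1) * (φ : (∀ i, E i) → R) x = 0 by
    linear_combination -h) with h' | h'
  · exact absurd (Units.ext (sub_eq_zero.mp h')) hne
  · exact h'

theorem weilOp_mem {g : Matrix (Fin 2) (Fin 2) A} {φ : (∀ i, E i) → R}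
    (hφ : φ ∈ cusp (F := F) μ) : weilOp d g φ ∈ cusp (F := F) μ := by
  intro u hu x
  rw [weilOp_apply, weilOp_apply, Finset.mul_sum,
    ← (scale_bijective u).sum_comp fun y => kernP d g (scale u x) y * φ y]
  refine Finset.sum_congr rfl fun y _ => ?_
  rw [hφ u hu y, kernP_scale d u 1 (fun i => by simp [hu i]), twistMat_eq]
  simp only [Units.val_one, inv_one, ← Matrix.one_fin_two, one_mul, mul_one]
  ring

/-- The Weil operator on `cusp μ`. -/
def weilCusp (g : Matrix (Fin 2) (Fin 2) A) : Module.End R (cusp (F := F) μ) :=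
  (weilOp d g).restrict fun _ => weilOp_mem d

theorem coe_weilCusp (g : Matrix (Fin 2) (Fin 2) A) (φ : cusp (F := F) μ) :
    (weilCusp d g φ : (∀ i, E i) → R) = weilOp d g φ := rfl

theorem weilCusp_one : weilCusp (E := E) (μ := μ) d 1 = 1 :=
  LinearMap.ext fun φ => Subtype.ext <| by rw [coe_weilCusp, weilOp_one]; rfl

theorem weilCusp_mul (g h : Matrix (Fin 2) (Fin 2) A) (hg : g.det = 1) (hh : h.det = 1) :
    weilCusp (E := E) (μ := μ) d (g * h) = weilCusp d g * weilCusp d h :=
  LinearMap.ext fun φ => Subtype.ext <| by rw [coe_weilCusp, weilOp_mul d g h hg hh]; rfl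

variable (μ) in
/-- The operator of `diag(N h, 1)`. -/
def dilOp (h : ∀ i, (E i)ˣ) : Module.End R (cusp (F := F) μ) where
  toFun φ := ⟨fun x => muVal μ h⁻¹ * (φ : (∀ i, E i) → R) (scale h x), fun u hu x => by
    show muVal μ h⁻¹ * (φ : (∀ i, E i) → R) (scale h (scale u x)) = _
    rw [scale_scale, mul_comm h u, ← scale_scale, φ.2 u hu]
    ring⟩
  map_add' φ φ' := Subtype.ext <| funext fun x => by simp [mul_add]
  map_smul' c φ := Subtype.ext <| funext fun x => by simp [mul_left_comm]

theorem dilOp_apply (h : ∀ i, (E i)ˣ) (φ : cusp (F := F) μ) (x : ∀ i, E i) :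
    (dilOp μ h φ : (∀ i, E i) → R) x = muVal μ h⁻¹ * (φ : (∀ i, E i) → R) (scale h x) := rfl

theorem dilOp_mul (h h' : ∀ i, (E i)ˣ) :
    dilOp (F := F) μ (h * h') = dilOp μ h * dilOp μ h' := by
  refine LinearMap.ext fun φ => Subtype.ext <| funext fun x => ?_
  rw [Module.End.mul_apply, dilOp_apply, dilOp_apply, dilOp_apply, scale_scale, mul_inv,
    muVal_mul, mul_assoc, mul_comm h' h]

theorem dilOp_eq_of_norm_eq {h h' : ∀ i, (E i)ˣ}
    (he : ∀ i, Algebra.norm (F i) (h i : E i) = Algebra.norm (F i) (h' i : E i)) :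
    dilOp (F := F) μ h = dilOp μ h' := by
  obtain ⟨u, rfl⟩ : ∃ u, h = u * h' := ⟨h * h'⁻¹, by simp⟩
  have hu : ∀ i, Algebra.norm (F i) (u i : E i) = 1 := fun i => by
    have h1 := he i
    simp only [Pi.mul_apply, Units.val_mul, map_mul] at h1
    exact mul_right_cancel₀
      (fun e => (h' i).ne_zero (Algebra.norm_eq_zero_iff.mp e)) (h1.trans (one_mul _).symm)
  refine LinearMap.ext fun φ => Subtype.ext <| funext fun x => ?_
  rw [dilOp_apply, dilOp_apply, ← scale_scale, φ.2 u hu, mul_inv, muVal_mul]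
  linear_combination (muVal μ h'⁻¹ * (φ : (∀ i, E i) → R) (scale h' x)) * muVal_inv_mul μ u

theorem dilOp_mul_weilCusp {h : ∀ i, (E i)ˣ} {t : Aˣ} (hl : IsNormLift d h (t : A))
    (s : Matrix (Fin 2) (Fin 2) A) :
    dilOp μ h * weilCusp d s = weilCusp d (twistMat t s) * dilOp μ h := by
  refine LinearMap.ext fun φ => Subtype.ext <| funext fun x => ?_
  rw [Module.End.mul_apply, Module.End.mul_apply, dilOp_apply, coe_weilCusp, coe_weilCusp,
    weilOp_apply, weilOp_apply, Finset.mul_sum,
    ← (scale_bijective h).sum_comp fun y =>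
      muVal μ h⁻¹ * (kernP d s (scale h x) y * (φ : (∀ i, E i) → R) y)]
  refine Finset.sum_congr rfl fun y _ => ?_
  rw [dilOp_apply, kernP_scale d h t hl]
  ring

variable (E) in
/-- A choice of norm lift. -/
def normLift (t : Aˣ) : ∀ i, (E i)ˣ := (exists_isNormLift (E := E) d t).choose

theorem isNormLift_normLift (t : Aˣ) : IsNormLift d (normLift E d t) (t : A) :=
  (exists_isNormLift d t).choose_spec

/-- The determinant one part `diag(1/det g, 1) g`. -/
def slPart (g : GL (Fin 2) A) : Matrix (Fin 2) (Fin 2) A :=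
  !![(((Matrix.GeneralLinearGroup.det g)⁻¹ : Aˣ) : A), 0; 0, 1] * (g : Matrix (Fin 2) (Fin 2) A)

theorem det_slPart (g : GL (Fin 2) A) : (slPart g).det = 1 := by
  rw [slPart, Matrix.det_mul, Matrix.det_fin_two_of, mul_zero, sub_zero, mul_one,
    ← Matrix.GeneralLinearGroup.val_det_apply, Units.inv_mul]

theorem slPart_mul (g g' : GL (Fin 2) A) :
    twistMat (Matrix.GeneralLinearGroup.det g')⁻¹ (slPart g) * slPart g' = slPart (g * g') := by
  rw [twistMat_eq]
  simp only [slPart, map_mul, mul_inv, inv_inv, Units.val_mul, Matrix.GeneralLinearGroup.coe_mul]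
  set t := Matrix.GeneralLinearGroup.det g
  set t' := Matrix.GeneralLinearGroup.det g'
  have h1 : !![(t' : A), 0; 0, 1] * !![((t'⁻¹ : Aˣ) : A), 0; 0, 1] = 1 := by
    rw [Matrix.mul_fin_two, Matrix.one_fin_two]; simp
  have h2 : !![((t'⁻¹ : Aˣ) : A), 0; 0, 1] * !![((t⁻¹ : Aˣ) : A), 0; 0, 1] =
      !![((t⁻¹ : Aˣ) : A) * ((t'⁻¹ : Aˣ) : A), 0; 0, 1] := by
    rw [Matrix.mul_fin_two]; simp [mul_comm]
  rw [← h2]
  simp only [Matrix.mul_assoc]
  rw [← Matrix.mul_assoc (!![(t' : A), 0; 0, 1]), h1, Matrix.one_mul]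

variable (μ) in
/-- The representation of `GL₂(A)` on `cusp μ`. -/
def rep : Representation R (GL (Fin 2) A) (cusp (F := F) μ) where
  toFun g := dilOp μ (normLift E d (Matrix.GeneralLinearGroup.det g)) * weilCusp d (slPart g)
  map_one' := by
    rw [show slPart (1 : GL (Fin 2) A) = 1 by simp [slPart, ← Matrix.one_fin_two],
      weilCusp_one, mul_one, map_one]
    rw [dilOp_eq_of_norm_eq (h' := 1) fun i => by simp [isNormLift_normLift d 1 i]]
    refine LinearMap.ext fun φ => Subtype.ext <| funext fun x => ?_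
    rw [dilOp_apply]
    simp [muVal, scale_one]
  map_mul' g g' := by
    set t := Matrix.GeneralLinearGroup.det g
    set t' := Matrix.GeneralLinearGroup.det g'
    have hl := isNormLift_normLift (E := E) d t'
    have hinv : IsNormLift d (normLift E d t')⁻¹ ((t'⁻¹ : Aˣ) : A) := fun i => by
      rw [Pi.inv_apply, map_units_inv (d.proj i), ← hl i]
      refine eq_inv_of_mul_eq_one_left ?_
      rw [← map_mul, Units.inv_mul, map_one]
    have hswap : weilCusp d (slPart g) * dilOp μ (normLift E d t') =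
        dilOp μ (normLift E d t') * weilCusp d (twistMat t'⁻¹ (slPart g)) := by
      rw [dilOp_mul_weilCusp d hl, twistMat_eq t' , twistMat_eq t'⁻¹, inv_inv]
      congr 2
      have h1 : !![(t' : A), 0; 0, 1] * !![((t'⁻¹ : Aˣ) : A), 0; 0, 1] = 1 := by
        rw [Matrix.mul_fin_two, Matrix.one_fin_two]; simp
      simp only [← Matrix.mul_assoc, h1, Matrix.one_mul]
      rw [Matrix.mul_assoc, h1, Matrix.mul_one]
    have hdil : dilOp μ (normLift E d (Matrix.GeneralLinearGroup.det (g * g'))) =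
        dilOp μ (normLift E d t * normLift E d t') :=
      dilOp_eq_of_norm_eq fun i => by
        rw [isNormLift_normLift d _ i, Pi.mul_apply, Units.val_mul, map_mul, map_mul,
          isNormLift_normLift d t i, hl i, Units.val_mul, map_mul]
    rw [hdil, dilOp_mul, ← slPart_mul, weilCusp_mul d _ _ (by rw [det_twistMat, det_slPart])
      (det_slPart g'), mul_assoc, mul_assoc, ← mul_assoc (dilOp μ (normLift E d t')), ← hswap,
      mul_assoc]

theorem rep_apply (g : GL (Fin 2) A) :
    rep d μ g =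
      dilOp μ (normLift E d (Matrix.GeneralLinearGroup.det g)) * weilCusp d (slPart g) := rfl

/-- Any norm lift of the determinant computes the action. -/
theorem rep_eq_of_isNormLift (g : GL (Fin 2) A) {h : ∀ i, (E i)ˣ}
    (hl : IsNormLift d h ((Matrix.GeneralLinearGroup.det g : Aˣ) : A)) :
    rep d μ g = dilOp μ h * weilCusp d (slPart g) := by
  rw [rep_apply, dilOp_eq_of_norm_eq fun i => (isNormLift_normLift d _ i).trans (hl i).symm]

/-- On `SL₂` the action is given by the kernels. -/
theorem rep_of_det_eq_one (g : GL (Fin 2) A)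
    (hg : (g : Matrix (Fin 2) (Fin 2) A).det = 1) (φ : cusp (F := F) μ) :
    (rep d μ g φ : (∀ i, E i) → R) = weilOp d (g : Matrix (Fin 2) (Fin 2) A) φ := by
  have hd : Matrix.GeneralLinearGroup.det g = 1 := Units.ext (by simpa using hg)
  rw [rep_eq_of_isNormLift d g (h := 1) (by rw [hd]; intro i; simp)]
  funext x
  rw [Module.End.mul_apply, dilOp_apply, coe_weilCusp]
  simp [muVal, scale_one, slPart, hd, ← Matrix.one_fin_two]

theorem kernP_of_upper (a b e : A) (x y : ∀ i, E i) :
    kernP d !![a, b; 0, e] x y =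
      if y = (fun i => d.proj i a • x i)
      then ∏ i, d.char i (d.proj i (a * b) * Algebra.norm (F i) (x i)) else 0 := by
  simp [kernP, kern, Fintype.prod_ite_zero, funext_iff]

/-- The action of a translation. -/
theorem rep_translation (g : GL (Fin 2) A) (b : A)
    (hg : (g : Matrix (Fin 2) (Fin 2) A) = !![1, b; 0, 1]) (φ : cusp (F := F) μ) (x : ∀ i, E i) :
    (rep d μ g φ : (∀ i, E i) → R) x =
      (∏ i, d.char i (d.proj i b * Algebra.norm (F i) (x i))) * (φ : (∀ i, E i) → R) x := by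
  rw [rep_of_det_eq_one d g (by rw [hg]; simp [Matrix.det_fin_two_of]), weilOp_apply, hg]
  simp [kernP_of_upper]

/-- The action of the diagonal torus. -/
theorem rep_diagonal (g : GL (Fin 2) A) (a e : Aˣ)
    (hg : (g : Matrix (Fin 2) (Fin 2) A) = !![(a : A), 0; 0, (e : A)]) {h : ∀ i, (E i)ˣ}
    (hl : IsNormLift d h ((a * e : Aˣ) : A)) (φ : cusp (F := F) μ) (x : ∀ i, E i) :
    (rep d μ g φ : (∀ i, E i) → R) x = muVal μ h⁻¹ * (φ : (∀ i, E i) → R)
      (fun i => d.proj i ((e⁻¹ : Aˣ) : A) • ((h i : E i) * x i)) := by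
  have hd : Matrix.GeneralLinearGroup.det g = a * e := Units.ext (by simp [hg])
  have hs : slPart g = !![((e⁻¹ : Aˣ) : A), 0; 0, (e : A)] := by
    rw [slPart, hd, hg, Matrix.mul_fin_two, mul_inv, Units.val_mul]
    congrm !![?_, ?_; ?_, ?_]
    · linear_combination ((e⁻¹ : Aˣ) : A) * a.inv_mul
    all_goals ring
  rw [rep_eq_of_isNormLift d g (hd ▸ hl), Module.End.mul_apply, dilOp_apply, coe_weilCusp,
    weilOp_apply, hs]
  simp [kernP_of_upper, scale]

end Fermat.Agent.TwoAdic.Weil
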